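import Fermat.Agent.S48.ModL.Hecke.Raw

/-!
# S48 / MODL, block [H4] for `GY M`: the compatibility `IsHeckeCompat (GY M) p s`
and the translation of `EigenCharY` into raw transfers.
-/

set_option autoImplicit false
set_option linter.style.haveILetI false
set_option linter.unusedSectionVars false

open UpperHalfPlane hiding I
open Function ModularCurve ModularForm CongruenceSubgroup AlgebraicCurve
open Matrix.SpecialLinearGroup (mapGL)
open P2MW.S_ModularForm_heckeT_slash_eq_self_of_mem_Gamma0.ModularForm.HeckeSlashInvariance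
open scoped Manifold MatrixGroups OnePoint
open Fermat.Agent.S24 Fermat.Agent.GAL.HeckeEquiv

namespace Fermat.Agent.S48.ModL

noncomputable section

variable {M p : ℕ} [hp : Fact p.Prime] {s : SL(2, ℤ)}

/-- `heckeRep p x * g = g' * heckeRep p y`, `g, g' ∈ Γ₀(M)`: the lower right entries mod `M`
satisfy `d(x) d(g) = d(g') d(y)`, where `d(∞) = 1`, `d(j) = p`. -/
theorem entry_of_heckeRep_mul {g g' : SL(2, ℤ)} (hg : g ∈ Gamma0 M) (hg' : g' ∈ Gamma0 M)
    {x y : OnePoint (ZMod p)}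
    (h : heckeRep p x * mapGL ℝ g = mapGL ℝ g' * heckeRep p y) :
    (x.elim (1 : ZMod M) fun _ => (p : ZMod M)) * ((g 1 1 : ℤ) : ZMod M) =
      ((g' 1 1 : ℤ) : ZMod M) * (y.elim (1 : ZMod M) fun _ => (p : ZMod M)) := by
  have hp0 : p ≠ 0 := hp.out.ne_zero
  rw [Gamma0_mem] at hg'
  have h11 := congrArg (fun A : GL (Fin 2) ℝ => (A : Matrix (Fin 2) (Fin 2) ℝ) 1 1) h
  induction x using OnePoint.rec with
  | infty =>
    induction y using OnePoint.rec with
    | infty =>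
      simp [hp0, Matrix.mul_apply, Fin.sum_univ_two, -ZMod.natCast_val] at h11
      have h2 : g 1 1 = g' 1 1 := by exact_mod_cast h11
      simp [h2]
    | coe j =>
      simp [hp0, Matrix.mul_apply, Fin.sum_univ_two, -ZMod.natCast_val] at h11
      have h2 : g 1 1 = g' 1 0 * (j.val : ℤ) + g' 1 1 * (p : ℤ) := by exact_mod_cast h11
      have h3 := congrArg (fun z : ℤ => (z : ZMod M)) h2
      push_cast at h3
      rw [hg', zero_mul, zero_add] at h3
      simpa using h3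
  | coe i =>
    induction y using OnePoint.rec with
    | infty =>
      simp [hp0, Matrix.mul_apply, Fin.sum_univ_two, -ZMod.natCast_val] at h11
      have h2 : (p : ℤ) * g 1 1 = g' 1 1 := by exact_mod_cast h11
      have h3 := congrArg (fun z : ℤ => (z : ZMod M)) h2
      push_cast at h3
      simpa using h3
    | coe j =>
      simp [hp0, Matrix.mul_apply, Fin.sum_univ_two, -ZMod.natCast_val] at h11
      have h2 : (p : ℤ) * g 1 1 = g' 1 0 * (j.val : ℤ) + g' 1 1 * (p : ℤ) := by exact_mod_cast h11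
      have h3 := congrArg (fun z : ℤ => (z : ZMod M)) h2
      push_cast at h3
      rw [hg', zero_mul, zero_add] at h3
      simpa using h3

/-- the left factor of `rawRep`: `rawRep p s x = t_x * heckeRep p x`. -/
def rawFac (p : ℕ) (s : SL(2, ℤ)) (x : OnePoint (ZMod p)) : SL(2, ℤ) :=
  x.elim 1 fun _ => s⁻¹

theorem rawRep_eq_rawFac_mul (p : ℕ) (s : SL(2, ℤ)) (x : OnePoint (ZMod p)) :
    rawRep p s x = mapGL ℝ (rawFac p s x) * heckeRep p x := by
  induction x using OnePoint.rec with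
  | infty =>
    change heckeDiagMatrix p = mapGL ℝ 1 * heckeDiagMatrix p
    rw [map_one, one_mul]
  | coe j => rfl

theorem rawFac_mem {N : ℕ} (hs : s ∈ Gamma0 N) (x : OnePoint (ZMod p)) :
    rawFac p s x ∈ Gamma0 N := by
  induction x using OnePoint.rec with
  | infty => exact one_mem _
  | coe j => exact inv_mem hs

theorem rawFac_entry (hs : s ∈ Gamma0 M) (hsp : ((s 1 1 : ℤ) : ZMod M) = p)
    (x : OnePoint (ZMod p)) :
    ((rawFac p s x 1 1 : ℤ) : ZMod M) * (x.elim (1 : ZMod M) fun _ => (p : ZMod M)) = 1 := by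
  induction x using OnePoint.rec with
  | infty =>
    change (((1 : SL(2, ℤ)) 1 1 : ℤ) : ZMod M) * 1 = 1
    simp
  | coe j =>
    change ((s⁻¹ 1 1 : ℤ) : ZMod M) * (p : ZMod M) = 1
    rw [← hsp, mul_comm]
    exact Gamma0_entry_mul_inv hs

theorem rawFac_inv_entry (hsp : ((s 1 1 : ℤ) : ZMod M) = p) (x : OnePoint (ZMod p)) :
    (((rawFac p s x)⁻¹ 1 1 : ℤ) : ZMod M) = x.elim (1 : ZMod M) fun _ => (p : ZMod M) := by
  induction x using OnePoint.rec with
  | infty =>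
    change (((1 : SL(2, ℤ))⁻¹ 1 1 : ℤ) : ZMod M) = 1
    simp
  | coe j =>
    change (((s⁻¹)⁻¹ 1 1 : ℤ) : ZMod M) = (p : ZMod M)
    rw [inv_inv, hsp]

/-- **`GY M` is compatible with `p ∤ M` and any `s ∈ Γ₀(M²)` with `d_s ≡ p` mod `M`.** -/
theorem isHeckeCompat_GY (hpM : ¬ p ∣ M) (hs : s ∈ Gamma0 (M ^ 2))
    (hsp : ((s 1 1 : ℤ) : ZMod M) = p) : IsHeckeCompat (GY M) p s := by
  have hpM2 : ¬ p ∣ M ^ 2 := fun h => hpM (hp.out.dvd_of_dvd_pow h)
  refine ⟨fun g hg x => ?_, ?_⟩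
  · have hg0 : ((M ^ 2 : ℕ) : ℤ) ∣ g 1 0 :=
      (ZMod.intCast_zmod_eq_zero_iff_dvd _ _).mp (Gamma0_mem.mp hg.1)
    obtain ⟨g', hg', hmul⟩ := heckeRep_mul hpM2 g hg0 x
    have hg'0 : g' ∈ Gamma0 (M ^ 2) :=
      Gamma0_mem.mpr ((ZMod.intCast_zmod_eq_zero_iff_dvd _ _).mpr hg')
    set y := redMatrix p g • x with hy
    have hent := entry_of_heckeRep_mul (Gamma0_sq_le M hg.1) (Gamma0_sq_le M hg'0) hmul
    have hx0 := rawFac_mem (p := p) hs x
    have hy0 := rawFac_mem (p := p) hs y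
    refine ⟨rawFac p s x * g' * (rawFac p s y)⁻¹, ⟨mul_mem (mul_mem hx0 hg'0) (inv_mem hy0), ?_⟩, ?_⟩
    · have e : (((rawFac p s x * g' * (rawFac p s y)⁻¹) 1 1 : ℤ) : ZMod M) =
          ((g 1 1 : ℤ) : ZMod M) := by
        rw [Gamma0_mul_entry (Gamma0_sq_le M (mul_mem hx0 hg'0)),
          Gamma0_mul_entry (Gamma0_sq_le M hx0), rawFac_inv_entry hsp, mul_assoc, ← hent,
          ← mul_assoc, rawFac_entry (Gamma0_sq_le M hs) hsp, one_mul]
      rw [e]
      exact hg.2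
    · rw [rawRep_eq_rawFac_mul, rawRep_eq_rawFac_mul, mul_assoc, hmul, map_mul, map_mul, map_inv]
      group
  · refine ⟨⟨!![1, 0; (M ^ 2 : ℕ), 1], by simp [Matrix.det_fin_two_of]⟩, ⟨?_, ?_⟩, ?_⟩
    · rw [Gamma0_mem]
      have h0 : ((M ^ 2 : ℕ) : ZMod (M ^ 2)) = 0 := ZMod.natCast_self (M ^ 2)
      change ((((M ^ 2 : ℕ) : ℤ)) : ZMod (M ^ 2)) = 0
      rw [Int.cast_natCast, h0]
    · left
      simp
    · intro h
      have h1 : (p : ℤ) ∣ ((M ^ 2 : ℕ) : ℤ) := by simpa using h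
      exact hpM2 (Int.natCast_dvd_natCast.1 h1)

/-- `s ∈ Γ₀(M²)` normalises `GY M`. -/
theorem conj_mem_GY (hs : s ∈ Gamma0 (M ^ 2)) {g : SL(2, ℤ)} (hg : g ∈ GY M) :
    s * g * s⁻¹ ∈ GY M := by
  refine ⟨mul_mem (mul_mem hs hg.1) (inv_mem hs), ?_⟩
  have e : (((s * g * s⁻¹) 1 1 : ℤ) : ZMod M) = ((g 1 1 : ℤ) : ZMod M) := by
    rw [Gamma0_mul_entry (Gamma0_sq_le M (mul_mem hs hg.1)), Gamma0_mul_entry (Gamma0_sq_le M hs),
      mul_right_comm, Gamma0_entry_mul_inv (Gamma0_sq_le M hs), one_mul]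
  rw [e]
  exact hg.2

/-- Translation of the two eigen-properties of `EigenCharY` into a raw transfer:
if `p c(s γ s⁻¹) = e c(γ)` and `∑ₓ c(d x) = t c(γ)` for the standard representatives `repY`,
then `e ∑ₓ c(d x) = p t c(γ)` for the raw representatives. -/
theorem rawTransfer_of_eigen {k : Type*} [Field k] (c : Additive (GY M) →+ k) (t e : k)
    (hs : s ∈ Gamma0 (M ^ 2))
    (h1 : ∀ γ γ' : GY M, (γ' : SL(2, ℤ)) = s * γ * s⁻¹ →
      (p : k) * c (Additive.ofMul γ') = e * c (Additive.ofMul γ))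
    (h2 : ∀ (γ : GY M) (σ : Equiv.Perm (OnePoint (ZMod p))) (d : OnePoint (ZMod p) → GY M),
      (∀ x, repY p s x * mapGL ℝ (γ : SL(2, ℤ)) = mapGL ℝ (d x : SL(2, ℤ)) * repY p s (σ x)) →
      ∑ x, c (Additive.ofMul (d x)) = t * c (Additive.ofMul γ))
    (γ : GY M) (σ : Equiv.Perm (OnePoint (ZMod p))) (d : OnePoint (ZMod p) → GY M)
    (hd : ∀ x, rawRep p s x * mapGL ℝ (γ : SL(2, ℤ)) =
      mapGL ℝ (d x : SL(2, ℤ)) * rawRep p s (σ x)) :
    e * ∑ x, c (Additive.ofMul (d x)) = (p : k) * t * c (Additive.ofMul γ) := by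
  have h3 := h2 γ σ (fun x => ⟨s * d x * s⁻¹, conj_mem_GY hs (d x).2⟩) (fun x => by
    rw [repY_eq, repY_eq, mul_assoc, hd x, map_mul, map_mul, map_inv]
    group)
  rw [mul_assoc, ← h3, Finset.mul_sum, Finset.mul_sum]
  exact Finset.sum_congr rfl fun x _ => (h1 (d x) _ rfl).symm

end

end Fermat.Agent.S48.ModL
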