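import Fermat.Agent.S48.ModL.Hecke.Cosets
import Fermat.Agent.GAL.HeckeEquiv.Kummer

/-!
# S48 / MODL, block [H4]: K3, Hecke equivariance of Kummer classes

Port of `GAL/HeckeEquiv/Kummer.lean` (analytic half) and `GAL/Sup/K3.lean`.
-/

set_option autoImplicit false
set_option linter.style.haveILetI false
set_option linter.unusedSectionVars false

open UpperHalfPlane hiding I
open Function ModularCurve ModularForm CongruenceSubgroup AlgebraicCurve
open Matrix.SpecialLinearGroup (mapGL)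
open P2MW.S_ModularForm_heckeT_slash_eq_self_of_mem_Gamma0.ModularForm.HeckeSlashInvariance
open scoped Manifold MatrixGroups OnePoint
open Fermat.Agent.S24 Fermat.Agent.GAL.HeckeEquiv Fermat.Agent.RED.TorsES

namespace Fermat.Agent.S48.ModL

noncomputable section

variable {L : Lvl} {p : ℕ} [hp : Fact p.Prime] {s : SL(2, ℤ)}

/-- `h' = ∏ₓ h ∘ rawRep p s x`. -/
def rawProd (p : ℕ) [Fact p.Prime] (s : SL(2, ℤ)) (h : Mer) : Mer :=
  ∏ x : OnePoint (ZMod p), merGL (rawRep p s x) (det_rawRep_pos p s x) h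

theorem rawProd_pow (h : Mer) (m : ℕ) : rawProd p s (h ^ m) = rawProd p s h ^ m := by
  rw [rawProd, rawProd, ← Finset.prod_pow]
  exact Finset.prod_congr rfl fun x _ => map_pow _ _ _

theorem IsHeckeCompat.hasChar_rawProd (hc : IsHeckeCompat L.G p s) {χ χ' : L.G →* ℂˣ} {h : Mer}
    (hχ : HasChar L χ h) (ht : IsRawTransferG p s χ χ') : HasChar L χ' (rawProd p s h) := by
  intro g
  -- the transfer data for `g⁻¹`
  have hex : ∀ x : OnePoint (ZMod p), ∃ d : L.G,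
      rawRep p s x * mapGL ℝ ((g⁻¹ : L.G) : SL(2, ℤ)) =
        mapGL ℝ (d : SL(2, ℤ)) * rawRep p s (redMatrix p ((g⁻¹ : L.G) : SL(2, ℤ)) • x) := by
    intro x
    obtain ⟨g', h1, h2⟩ := hc.mul ((g⁻¹ : L.G) : SL(2, ℤ)) (g⁻¹).2 x
    exact ⟨⟨g', h1⟩, h2⟩
  choose d hd using hex
  set σ : Equiv.Perm (OnePoint (ZMod p)) :=
    MulAction.toPerm (redMatrix p ((g⁻¹ : L.G) : SL(2, ℤ))) with hσ
  have htr : χ' g⁻¹ = ∏ x, χ (d x) := ht g⁻¹ σ d hd
  have hterm : ∀ x : OnePoint (ZMod p),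
      actMer (g : SL(2, ℤ)) (merGL (rawRep p s x) (det_rawRep_pos p s x) h) =
        algebraMap ℂ Mer (((χ (d x))⁻¹ : ℂˣ) : ℂ) *
          merGL (rawRep p s (σ x)) (det_rawRep_pos p s _) h := by
    intro x
    have e1 : actMer ((d x : SL(2, ℤ)))⁻¹ h = algebraMap ℂ Mer (((χ (d x))⁻¹ : ℂˣ) : ℂ) * h := by
      have := hχ (d x)⁻¹
      rwa [map_inv] at this
    have hdx : rawRep p s x * mapGL ℝ (g : SL(2, ℤ))⁻¹ =
        mapGL ℝ (d x : SL(2, ℤ)) * rawRep p s (σ x) := hd x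
    rw [actMer_eq_merGL, merGL_merGL, merGL_congr hdx,
      ← merGL_merGL _ _ (det_rawRep_pos p s _) (det_mapGL_pos (d x : SL(2, ℤ))), merGL_mapGL, e1,
      map_mul, AlgHom.commutes]
  rw [rawProd, map_prod, Finset.prod_congr rfl fun x _ => hterm x, Finset.prod_mul_distrib,
    Equiv.prod_comp σ (fun x => merGL (rawRep p s x) (det_rawRep_pos p s x) h), ← map_prod]
  congr 2
  rw [← Units.coe_prod, Finset.prod_inv_distrib, ← htr, map_inv, inv_inv]

/-- **K3**: `x = [D]`, `m D = div u`, `θ u = h ^ m`. Then `heckeRaw x = [α_* β^* D]`,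
`m α_* β^* D = div u'`, `u' = Norm_α (β u)`, `θ u' = ∏_x (θ u) ∘ rawRep x = (h') ^ m`. -/
theorem IsKummer.heckeRaw (hc : IsHeckeCompat L.G p s) {m : ℕ} {χ χ' : L.G →* ℂˣ}
    {x : L.Jac} (h : IsKummer L m χ x) (ht : IsRawTransferG p s χ χ') :
    IsKummer L m χ' (Lvl.heckeRaw hc.conjP x) := by
  obtain ⟨D, u, h, hu, hD, hθ, hχ, rfl⟩ := h
  refine ⟨Pic0.degZeroCorrespondence (Lvl.betaK hc.conjP Kb) (Lvl.alphaK hc.conjP Kb)
      (Lvl.isIntegral_betaK hc.conjP) (Lvl.isIntegral_alphaK hc.conjP)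
      (Lvl.fundamentalIdentityAlong_betaK hc.conjP) D,
    normAlong (Lvl.alphaK hc.conjP Kb) (Lvl.betaK hc.conjP Kb u),
    rawProd p s h, ?_, ?_, ?_, ?_, rfl⟩
  · exact norm_along_ne_zero _ _ (Lvl.finiteAlong_alphaK hc.conjP) hu
  · intro v
    exact ord_norm_eq_mul_correspondence _ _ (Lvl.isIntegral_betaK hc.conjP)
      (Lvl.isIntegral_alphaK hc.conjP) (Lvl.finiteAlong_alphaK hc.conjP)
      (Lvl.normFormulaAlong_alphaK hc.conjP) (m : ℤ) D u hu hD v
  · rw [hc.thetaK_norm_betaK, hθ]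
    exact rawProd_pow h m
  · exact hc.hasChar_rawProd hχ ht

end

end Fermat.Agent.S48.ModL
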