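import Fermat.Agent.S48.ModL.Hecke.Cosets
import Fermat.Agent.S48.ModL.CongrAbs
import Fermat.Agent.S48.ModL.HP.TNorm
import Fermat.Agent.GAL.HeckeEquiv.Kummer

/-!
# S48 / MODL, block [H5]: the `t`-expansion of `N_α (β y)` and Kronecker's congruence

`(N_α (β y))(t ^ p) = y (t ^ (p²)) * ∏_{b < p} (δ y)(ζ ^ b t)`, `δ = D.diamS`.

Proof: the analytic identity `IsHeckeCompat.thetaK_norm_betaK` is transported to expansions by
`HP.tnorm_of_analytic`.  No swap (Atkin–Lehner) is needed.
-/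

set_option autoImplicit false
set_option linter.style.haveILetI false
set_option linter.unusedSectionVars false

open UpperHalfPlane hiding I
open Function ModularCurve ModularForm CongruenceSubgroup AlgebraicCurve
open Matrix.SpecialLinearGroup (mapGL)
open P2MW.S_ModularForm_heckeT_slash_eq_self_of_mem_Gamma0.ModularForm.HeckeSlashInvariance
open scoped Manifold MatrixGroups OnePoint
open Fermat.Agent.S24 Fermat.Agent.GAL.HeckeEquiv Fermat.Agent.RED.TorsES Fermat.Agent.RED.ES
  Fermat.Agent.RED.Gauss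

namespace Fermat.Agent.S48.ModL

noncomputable section

variable {L : Lvl} {p : ℕ} [hp : Fact p.Prime] (D : L.Diam)

/-- the analytic norm formula, with the diamond -/
theorem thetaK_norm_betaK_diam (hc : IsHeckeCompat L.G p D.s) (f : L.FK Kb) :
    L.thetaK iotaK.toRingHom (normAlong (Lvl.alphaK hc.conjP Kb) (Lvl.betaK hc.conjP Kb f)) =
      merGL (heckeDiagMatrix p) (det_heckeDiagMatrix_pos p) (L.thetaK iotaK.toRingHom f) *
        ∏ j : ZMod p, merGL (heckeMatrix p j.val) (det_heckeMatrix_pos p j.val)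
          (L.thetaK iotaK.toRingHom (D.diamS • f)) := by
  rw [hc.thetaK_norm_betaK]
  have h1 := Fintype.prod_option (fun x : OnePoint (ZMod p) =>
    merGL (rawRep p D.s x) (det_rawRep_pos p D.s x) (L.thetaK iotaK.toRingHom f))
  refine h1.trans ?_
  refine congrArg₂ (· * ·) rfl ?_
  refine Finset.prod_congr rfl fun j _ => ?_
  rw [D.thetaK_diamS_smul, actMer_eq_merGL, merGL_merGL]
  rfl

/-- the same, as a product over `b < p` -/
theorem thetaK_norm_betaK_diam' (hc : IsHeckeCompat L.G p D.s) (f : L.FK Kb) :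
    L.thetaK iotaK.toRingHom (normAlong (Lvl.alphaK hc.conjP Kb) (Lvl.betaK hc.conjP Kb f)) =
      HP.scalMer p (L.thetaK iotaK.toRingHom f) *
        ∏ b ∈ Finset.range p, merGL (heckeMatrix p b) (det_heckeMatrix_pos p b)
          (L.thetaK iotaK.toRingHom (D.diamS • f)) := by
  rw [thetaK_norm_betaK_diam D hc f]
  refine congrArg₂ (· * ·) rfl ?_
  rw [← Fin.prod_univ_eq_prod_range (fun b => merGL (heckeMatrix p b) (det_heckeMatrix_pos p b)
    (L.thetaK iotaK.toRingHom (D.diamS • f))) p]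
  obtain ⟨n, rfl⟩ : ∃ n, p = n + 1 := ⟨p - 1, (Nat.succ_pred_eq_of_pos hp.out.pos).symm⟩
  rfl

/-- **[H5]** the `t`-expansion of the norm. -/
theorem qExpand_norm_diam (hc : IsHeckeCompat L.G p D.s) (ζ : Kbˣ)
    (hζ : iotaK (ζ : Kb) = Complex.exp (2 * (Real.pi : ℂ) * Complex.I / p)) (y : L.FK Kb) :
    qExpand Kb p ((normAlong (Lvl.alphaK hc.conjP Kb) (Lvl.betaK hc.conjP Kb y) : L.FK Kb) :
        LaurentSeries Kb) =
      qExpand Kb p (qExpand Kb p (y : LaurentSeries Kb)) *
        ∏ b ∈ Finset.range p, rotR (ζ ^ b) ((D.diamS • y : L.FK Kb) : LaurentSeries Kb) :=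
  HP.tnorm_of_analytic L p _ y _ ζ hζ (thetaK_norm_betaK_diam' D hc y)

/-- **[H5]** Kronecker's congruence with the diamond, for any Gauss norm in residue
characteristic `p` preserved by the diamond. -/
theorem congrD_diam (hc : IsHeckeCompat L.G p D.s) {A : ValuationSubring Kb} {k : Type*} [Field k]
    [CharP k p] {π : A →+* k} (hN : Norm π (L.FKf Kb))
    (hδ : ∀ y : gO hN, D.diamS • (y : L.FK Kb) ∈ gO hN) :
    CongrD hN p (Lvl.alphaK hc.conjP Kb) (Lvl.betaK hc.conjP Kb) D.diamS := by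
  obtain ⟨ζ, hζ1, hζ⟩ := HP.exists_zeta_unit p A π
  refine congrD_of_normFormula hN p _ _ D.diamS hδ ζ hζ1 fun y hy => ⟨?_, ?_⟩
  · exact norm_along_ne_zero _ _ (Lvl.finiteAlong_alphaK hc.conjP) hy
  · exact qExpand_norm_diam D hc (Units.map (A.subtype : A →* Kb) ζ) hζ y

end

end Fermat.Agent.S48.ModL
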