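import Fermat.Agent.S48.ModL.Hecke.WithP
import Fermat.Agent.S48.ModL.AD.Degree
import Fermat.Agent.GAL.FFExt
import Fermat.Agent.GAL.FFSemilinear

/-!
# S48 / MODL, block [H1], [H3]: the degeneracy maps `α`, `β`, the raw Hecke correspondence
`heckeRaw = α_* β^*` on `L.Jac`, and its Galois equivariance.
-/

set_option autoImplicit false
set_option linter.style.haveILetI false
set_option linter.unusedSectionVars false

open UpperHalfPlane hiding I
open Function ModularCurve ModularForm CongruenceSubgroup AlgebraicCurve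
open Matrix.SpecialLinearGroup (mapGL)
open scoped Manifold MatrixGroups
open Fermat.Agent.S24 Fermat.Agent.GAL.HeckeEquiv Fermat.Agent.GAL.FFExt Fermat.Agent.GAL.FFSemi

namespace Fermat.Agent.S48.ModL

noncomputable section

namespace Lvl

variable {L : Lvl} {p : ℕ} [NeZero p] (h : L.ConjP p)

section Field

variable (K : Type*) [Field K] [Algebra ℚ K]

theorem FKf_le_withP : L.FKf K ≤ (L.withP p h).FKf K := by
  intro x hx
  refine L.fk_le ((L.withP p h).FKf K).toSubfield ?_ ?_ x hx
  · intro a
    exact ((L.withP p h).FKf K).algebraMap_mem a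
  · intro i
    exact ((L.withP p h).genK K (Sum.inl i : L.ι ⊕ L.ι)).2

theorem qExpand_mem_withP {x : LaurentSeries K} (hx : x ∈ L.FKf K) :
    qExpand K p x ∈ (L.withP p h).FKf K := by
  refine L.fk_le (((L.withP p h).FKf K).toSubfield.comap (qExpand K p)) ?_ ?_ x hx
  · intro a
    show qExpand K p (algebraMap K (LaurentSeries K) a) ∈ (L.withP p h).FKf K
    rw [algebraMap_laurentSeries_eq_single, qExpand_single, mul_zero,
      ← algebraMap_laurentSeries_eq_single]
    exact ((L.withP p h).FKf K).algebraMap_mem a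
  · intro i
    show qExpand K p (coeffEmb K (L.gen i)) ∈ (L.withP p h).FKf K
    have := ((L.withP p h).genK K (Sum.inr i : L.ι ⊕ L.ι)).2
    rw [coe_genK, withP_gen_inr] at this
    rwa [coeffEmb, Fermat.Agent.GAL.HeckeGalois.coeffMap_qExpand] at this

/-- `α` : the inclusion. -/
def alphaK : L.FK K →ₐ[K] (L.withP p h).FK K := IntermediateField.inclusion (FKf_le_withP h K)

/-- `β` : `q ↦ q ^ p`. -/
def betaK : L.FK K →ₐ[K] (L.withP p h).FK K where
  toFun x := ⟨qExpand K p (x : LaurentSeries K), qExpand_mem_withP h K x.2⟩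
  map_one' := Subtype.ext (map_one (qExpand K p))
  map_mul' _ _ := Subtype.ext (map_mul (qExpand K p) _ _)
  map_zero' := Subtype.ext (map_zero (qExpand K p))
  map_add' _ _ := Subtype.ext (map_add (qExpand K p) _ _)
  commutes' a := Subtype.ext <| by
    show qExpand K p (algebraMap K (LaurentSeries K) a) = algebraMap K (LaurentSeries K) a
    rw [algebraMap_laurentSeries_eq_single, qExpand_single, mul_zero]

variable {K}

@[simp] theorem coe_alphaK (x : L.FK K) :
    ((alphaK h K x : (L.withP p h).FK K) : LaurentSeries K) = (x : LaurentSeries K) :=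
  IntermediateField.coe_inclusion _ x

@[simp] theorem coe_betaK (x : L.FK K) :
    ((betaK h K x : (L.withP p h).FK K) : LaurentSeries K) = qExpand K p (x : LaurentSeries K) :=
  rfl

theorem alphaK_genK (i : L.ι) :
    alphaK h K (L.genK K i) = (L.withP p h).genK K (Sum.inl i : L.ι ⊕ L.ι) := by
  apply Subtype.ext
  rw [coe_alphaK, coe_genK, coe_genK, withP_gen_inl]

theorem betaK_genK (i : L.ι) :
    betaK h K (L.genK K i) = (L.withP p h).genK K (Sum.inr i : L.ι ⊕ L.ι) := by
  apply Subtype.ext
  rw [coe_betaK, coe_genK, coe_genK, withP_gen_inr]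
  exact (Fermat.Agent.GAL.HeckeGalois.coeffMap_qExpand _ _ _).symm

theorem alphaK_jK : alphaK h K (L.jK K) = (L.withP p h).jK K := alphaK_genK h L.i₀

variable (ι : K →+* ℂ)

theorem thetaK_alphaK (f : L.FK K) : (L.withP p h).thetaK ι (alphaK h K f) = L.thetaK ι f := by
  have : ((L.withP p h).thetaK ι).comp (alphaK h K).toRingHom = L.thetaK ι := by
    apply L.ringHom_ext_fk
    · intro a
      rw [RingHom.comp_apply, AlgHom.toRingHom_eq_coe, RingHom.coe_coe, AlgHom.commutes,
        thetaK_algebraMap, thetaK_algebraMap]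
    · intro i
      rw [RingHom.comp_apply, AlgHom.toRingHom_eq_coe, RingHom.coe_coe, alphaK_genK,
        thetaK_genK, thetaK_genK, withP_hol_inl]
  exact congrArg (fun φ : L.FK K →+* Mer => φ f) this

theorem thetaK_betaK (f : L.FK K) :
    (L.withP p h).thetaK ι (betaK h K f) =
      merGL (heckeDiagMatrix p) (det_heckeDiagMatrix_pos p) (L.thetaK ι f) := by
  have : ((L.withP p h).thetaK ι).comp (betaK h K).toRingHom =
      (merGL (heckeDiagMatrix p) (det_heckeDiagMatrix_pos p)).toRingHom.comp (L.thetaK ι) := by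
    apply L.ringHom_ext_fk
    · intro a
      rw [RingHom.comp_apply, RingHom.comp_apply, AlgHom.toRingHom_eq_coe, RingHom.coe_coe,
        AlgHom.commutes, AlgHom.toRingHom_eq_coe, RingHom.coe_coe,
        thetaK_algebraMap, thetaK_algebraMap, AlgHom.commutes]
    · intro i
      rw [RingHom.comp_apply, RingHom.comp_apply, AlgHom.toRingHom_eq_coe, RingHom.coe_coe,
        AlgHom.toRingHom_eq_coe, RingHom.coe_coe, betaK_genK,
        thetaK_genK, thetaK_genK, merGL_algebraMap, withP_hol_inr]
      rfl
  exact congrArg (fun φ : L.FK K →+* Mer => φ f) this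

end Field

/-! ### the inputs of the correspondence over `ℚ̄` -/

theorem isFiniteParam_jKb (L : Lvl) : IsFiniteParam Kb (L.jK Kb) :=
  L.isFiniteParam_jK iotaK.toRingHom

instance hasPrincipalDivisors_FK (L : Lvl) : HasPrincipalDivisors Kb (L.FK Kb) :=
  L.isFiniteParam_jKb.hasPrincipalDivisors

theorem finiteAlong_alphaK : FiniteAlong Kb (alphaK h Kb) :=
  finiteAlong _ L.isFiniteParam_jKb (L.withP p h).isFiniteParam_jKb

theorem finiteAlong_betaK : FiniteAlong Kb (betaK h Kb) :=
  finiteAlong _ L.isFiniteParam_jKb (L.withP p h).isFiniteParam_jKb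

theorem isIntegral_alphaK : (alphaK h Kb).toRingHom.IsIntegral :=
  isIntegralAlong _ (finiteAlong_alphaK h)

theorem isIntegral_betaK : (betaK h Kb).toRingHom.IsIntegral :=
  isIntegralAlong _ (finiteAlong_betaK h)

theorem fundamentalIdentityAlong_betaK :
    FundamentalIdentityAlong Kb (betaK h Kb) (isIntegral_betaK h) :=
  fundamentalIdentityAlong _ _ (finiteAlong_betaK h) L.isFiniteParam_jKb

theorem normFormulaAlong_alphaK : NormFormulaAlong Kb (alphaK h Kb) (finiteAlong_alphaK h) :=
  normFormulaAlong _ _ L.isFiniteParam_jKb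

/-- **The raw Hecke correspondence** `α_* β^*` on `L.Jac` (no diamond inside). -/
def heckeRaw : L.Jac →+ L.Jac :=
  Pic0.correspondence (betaK h Kb) (alphaK h Kb) (isIntegral_betaK h) (isIntegral_alphaK h)
    (fundamentalIdentityAlong_betaK h) (finiteAlong_alphaK h) (normFormulaAlong_alphaK h)

/-! ### Galois equivariance -/

variable (σ : Kb ≃ₐ[ℚ] Kb)

theorem compat_alphaK :
    Compat (alphaK h Kb) (arithmeticGalois L.F₀ σ) (arithmeticGalois (L.withP p h).F₀ σ) := by
  intro x
  apply Subtype.ext
  rw [coe_alphaK, coe_arithmeticGalois_smul, coe_arithmeticGalois_smul, coe_alphaK]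

theorem compat_betaK :
    Compat (betaK h Kb) (arithmeticGalois L.F₀ σ) (arithmeticGalois (L.withP p h).F₀ σ) := by
  intro x
  apply Subtype.ext
  rw [coe_betaK, coe_arithmeticGalois_smul, coe_arithmeticGalois_smul, coe_betaK,
    Fermat.Agent.GAL.HeckeGalois.coeffMap_qExpand]

/-- **[H3]** Galois commutes with the raw Hecke correspondence. -/
theorem galois_heckeRaw (x : L.Jac) : σ • heckeRaw h x = heckeRaw h (σ • x) := by
  rw [heckeRaw, galois_smul_pic0_def, galois_smul_pic0_def]
  exact (pic0_correspondence_smul _ _ _ _ _ _ _ L.isFiniteParam_jKb (compat_betaK h σ)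
    (compat_alphaK h σ) x).symm

end Lvl

end

end Fermat.Agent.S48.ModL
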