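import Fermat.Agent.S48.ModL.Hecke.NormProd

/-!
# S48 / MODL, block [H4]: `G / (G ∩ Γ₀(p)) ≃ ℙ¹(𝔽_p)` and the raw representatives

Port of `GAL/HeckeEquiv/Cosets.lean`; `heckeRep_mul` is replaced by the hypothesis
`IsHeckeCompat L.G p s`.
-/

set_option autoImplicit false
set_option linter.style.haveILetI false
set_option linter.unusedSectionVars false

open UpperHalfPlane hiding I
open Function ModularCurve ModularForm CongruenceSubgroup AlgebraicCurve
open Matrix.SpecialLinearGroup (mapGL)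
open P2MW.S_ModularForm_heckeT_slash_eq_self_of_mem_Gamma0.ModularForm.HeckeSlashInvariance
open scoped Manifold MatrixGroups OnePoint
open Fermat.Agent.S24 Fermat.Agent.GAL.HeckeEquiv Fermat.Agent.RED.TorsES

namespace Fermat.Agent.S48.ModL

noncomputable section

variable {L : Lvl} {p : ℕ} [hp : Fact p.Prime] {s : SL(2, ℤ)}

/-- `redMatrix` is an anti-homomorphism. -/
theorem redMatrix_mul_rev (g g' : SL(2, ℤ)) :
    redMatrix p (g * g') = redMatrix p g' * redMatrix p g := by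
  apply Matrix.GeneralLinearGroup.ext
  intro i j
  rw [Matrix.GeneralLinearGroup.coe_mul, Matrix.mul_apply, Fin.sum_univ_two]
  fin_cases i <;> fin_cases j <;>
    simp [Matrix.SpecialLinearGroup.coe_mul, Matrix.mul_apply, Fin.sum_univ_two] <;> ring

theorem redMatrix_smul_infty_of_dvd {g : SL(2, ℤ)} (hg : (p : ℤ) ∣ g 1 0) :
    redMatrix p g • (∞ : OnePoint (ZMod p)) = ∞ := by
  rw [OnePoint.smul_infty_eq_ite, if_pos]
  rw [redMatrix_apply_one_zero]
  exact (ZMod.intCast_zmod_eq_zero_iff_dvd _ _).mpr hg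

theorem exists_redMatrix_smul_infty_of_not_dvd {g : SL(2, ℤ)} (hg : ¬ (p : ℤ) ∣ g 1 0) :
    ∃ j : ZMod p, redMatrix p g • (∞ : OnePoint (ZMod p)) = (j : OnePoint (ZMod p)) := by
  rw [OnePoint.smul_infty_eq_ite, if_neg]
  · exact ⟨_, rfl⟩
  · rw [redMatrix_apply_one_zero]
    exact fun h => hg ((ZMod.intCast_zmod_eq_zero_iff_dvd _ _).mp h)

theorem redMatrix_T_zpow_smul (n : ℤ) (j : ZMod p) :
    redMatrix p (ModularGroup.T ^ n) • (j : OnePoint (ZMod p)) =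
      ((j + (n : ZMod p) : ZMod p) : OnePoint (ZMod p)) := by
  rw [OnePoint.smul_some_eq_ite, if_neg]
  · simp [ModularGroup.coe_T_zpow]
  · simp [ModularGroup.coe_T_zpow]

theorem piOf_mul (g g' : SL(2, ℤ)) : piOf p (g * g') = redMatrix p g⁻¹ • piOf p g' := by
  rw [piOf, piOf, mul_inv_rev, redMatrix_mul_rev, mul_smul]

theorem piOf_mul_of_mem (g : SL(2, ℤ)) {γ : SL(2, ℤ)} (hγ : γ ∈ Gamma0 p) :
    piOf p (g * γ) = piOf p g := by
  rw [piOf_mul, piOf, piOf, redMatrix_smul_infty_of_dvd]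
  exact (S20.mem_Gamma0_iff_dvd p _).mp (inv_mem hγ)

theorem mapGL_injective_cosets : Function.Injective (mapGL ℝ : SL(2, ℤ) → GL (Fin 2) ℝ) := by
  intro a b h
  ext i j
  have h1 := congrArg (fun M : GL (Fin 2) ℝ => (M : Matrix (Fin 2) (Fin 2) ℝ) i j) h
  simpa using h1

/-- `diag(p,1) (G ∩ Γ₀(p)) diag(p,1)⁻¹ ⊆ G`. -/
theorem IsHeckeCompat.conjP (hc : IsHeckeCompat L.G p s) : L.ConjP p := by
  intro g hg g' h
  obtain ⟨d, hd, hmul⟩ := hc.mul g hg ∞
  have h10 := entry_of_diag_comm hp.out.ne_zero g g' h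
  rw [redMatrix_smul_infty_of_dvd (h10 ▸ dvd_mul_left _ _), rawRep_infty, h] at hmul
  have := mapGL_injective_cosets (mul_right_cancel hmul)
  rw [this]
  exact hd

theorem IsHeckeCompat.exists_diag_mul (hc : IsHeckeCompat L.G p s) {g : SL(2, ℤ)}
    (hg : g ∈ L.G) :
    ∃ g' ∈ L.G, heckeDiagMatrix p * mapGL ℝ g⁻¹ = mapGL ℝ g' * rawRep p s (piOf p g) :=
  hc.mul g⁻¹ (inv_mem hg) ∞

theorem IsHeckeCompat.actMer_merGL_diag (hc : IsHeckeCompat L.G p s) {g : SL(2, ℤ)}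
    (hg : g ∈ L.G) {F : Mer} (hF : ∀ γ ∈ L.G, actMer γ F = F) :
    actMer g (merGL (heckeDiagMatrix p) (det_heckeDiagMatrix_pos p) F) =
      merGL (rawRep p s (piOf p g)) (det_rawRep_pos p s _) F := by
  obtain ⟨g', hg', h⟩ := hc.exists_diag_mul hg
  rw [actMer_eq_merGL, merGL_merGL, merGL_congr h, ← merGL_merGL _ _ (det_rawRep_pos p s _)
    (det_mapGL_pos g'), merGL_mapGL, hF _ (inv_mem hg')]

theorem IsHeckeCompat.mem_of_piOf_eq (hc : IsHeckeCompat L.G p s) {a b : SL(2, ℤ)}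
    (ha : a ∈ L.G) (hb : b ∈ L.G) (h : piOf p a = piOf p b) : a⁻¹ * b ∈ L.G ⊓ Gamma0 p := by
  obtain ⟨t, -, ht⟩ := hc.exists_diag_mul ha
  obtain ⟨t', -, ht'⟩ := hc.exists_diag_mul hb
  rw [h] at ht
  have key : heckeDiagMatrix p * mapGL ℝ (a⁻¹ * b) = mapGL ℝ (t * t'⁻¹) * heckeDiagMatrix p := by
    have h1 : heckeDiagMatrix p = mapGL ℝ t' * rawRep p s (piOf p b) * mapGL ℝ b := by
      rw [← ht', mul_assoc, ← map_mul, inv_mul_cancel, map_one, mul_one]
    calc heckeDiagMatrix p * mapGL ℝ (a⁻¹ * b)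
        = (heckeDiagMatrix p * mapGL ℝ a⁻¹) * mapGL ℝ b := by rw [map_mul, mul_assoc]
      _ = mapGL ℝ t * rawRep p s (piOf p b) * mapGL ℝ b := by rw [ht]
      _ = mapGL ℝ (t * t'⁻¹) * (mapGL ℝ t' * rawRep p s (piOf p b) * mapGL ℝ b) := by
          rw [map_mul, map_inv]; group
      _ = mapGL ℝ (t * t'⁻¹) * heckeDiagMatrix p := by rw [← h1]
  have h10' : (a⁻¹ * b) 1 0 = (t * t'⁻¹) 1 0 * (p : ℤ) :=
    entry_of_diag_comm hp.out.ne_zero _ _ key
  refine Subgroup.mem_inf.2 ⟨mul_mem (inv_mem ha) hb, ?_⟩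
  rw [S20.mem_Gamma0_iff_dvd]
  exact h10' ▸ dvd_mul_left _ _

theorem IsHeckeCompat.exists_piOf_eq (hc : IsHeckeCompat L.G p s) (x : OnePoint (ZMod p)) :
    ∃ g ∈ L.G, piOf p g = x := by
  induction x using OnePoint.rec with
  | infty =>
    refine ⟨1, one_mem _, ?_⟩
    rw [piOf, inv_one]
    exact redMatrix_smul_infty_of_dvd (by simp)
  | coe j =>
    obtain ⟨g₀, hg₀, hnd⟩ := hc.not_dvd
    have hnd' : ¬ (p : ℤ) ∣ (g₀⁻¹ : SL(2, ℤ)) 1 0 := by
      rw [Matrix.SpecialLinearGroup.SL2_inv_expl]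
      simpa using hnd
    obtain ⟨j₀, hj₀⟩ := exists_redMatrix_smul_infty_of_not_dvd hnd'
    obtain ⟨n, hn⟩ : ∃ n : ℤ, (n : ZMod p) = j - j₀ := ⟨((j - j₀).val : ℤ), by simp⟩
    refine ⟨ModularGroup.T ^ (-n) * g₀, mul_mem (zpow_mem L.T_mem _) hg₀, ?_⟩
    rw [piOf_mul, piOf, hj₀, ← zpow_neg, neg_neg, redMatrix_T_zpow_smul, hn]
    congr 1
    ring

theorem IsHeckeCompat.piOf_out_bijective (hc : IsHeckeCompat L.G p s) :
    Function.Bijective (fun q : L.QP p => piOf p (q.out : SL(2, ℤ))) := by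
  constructor
  · intro q q' h
    rw [← q.out_eq', ← q'.out_eq']
    exact QuotientGroup.eq.mpr (Subgroup.mem_subgroupOf.mpr
      (hc.mem_of_piOf_eq q.out.2 q'.out.2 h))
  · intro x
    obtain ⟨g, hg, rfl⟩ := hc.exists_piOf_eq x
    refine ⟨((⟨g, hg⟩ : L.G) : L.QP p), ?_⟩
    obtain ⟨γ, hγ⟩ := QuotientGroup.mk_out_eq_mul ((L.G ⊓ Gamma0 p).subgroupOf L.G) ⟨g, hg⟩
    show piOf p ((Quotient.out ((⟨g, hg⟩ : L.G) : L.QP p) : L.G) : SL(2, ℤ)) = piOf p g
    rw [hγ]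
    exact piOf_mul_of_mem g (Subgroup.mem_subgroupOf.mp γ.2).2

theorem IsHeckeCompat.card_QP (hc : IsHeckeCompat L.G p s) : Nat.card (L.QP p) = p + 1 := by
  rw [Nat.card_congr (Equiv.ofBijective _ hc.piOf_out_bijective), Nat.card_eq_fintype_card]
  have h2 : Fintype.card (OnePoint (ZMod p)) = Fintype.card (ZMod p) + 1 := Fintype.card_option
  rw [h2, ZMod.card]

/-- The product over the cosets is the product over the raw representatives. -/
theorem IsHeckeCompat.prod_actMer_merGL_diag (hc : IsHeckeCompat L.G p s) {F : Mer}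
    (hF : ∀ γ ∈ L.G, actMer γ F = F) :
    ∏ q : L.QP p, actMer (q.out : SL(2, ℤ))
        (merGL (heckeDiagMatrix p) (det_heckeDiagMatrix_pos p) F) =
      ∏ x : OnePoint (ZMod p), merGL (rawRep p s x) (det_rawRep_pos p s x) F := by
  rw [← hc.piOf_out_bijective.prod_comp
    (fun x : OnePoint (ZMod p) => merGL (rawRep p s x) (det_rawRep_pos p s x) F)]
  exact Finset.prod_congr rfl fun q _ => hc.actMer_merGL_diag q.out.2 hF

/-- **Analytic form of `Norm_α ∘ β`.** -/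
theorem IsHeckeCompat.thetaK_norm_betaK (hc : IsHeckeCompat L.G p s) (f : L.FK Kb) :
    L.thetaK iotaK.toRingHom (normAlong (Lvl.alphaK hc.conjP Kb) (Lvl.betaK hc.conjP Kb f)) =
      ∏ x : OnePoint (ZMod p),
        merGL (rawRep p s x) (det_rawRep_pos p s x) (L.thetaK iotaK.toRingHom f) := by
  rw [Lvl.thetaK_normAlong]
  simp only [Lvl.thetaK_betaK]
  exact hc.prod_actMer_merGL_diag fun γ hγ => L.actMer_thetaK _ hγ f

end

end Fermat.Agent.S48.ModL
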