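import Fermat.Agent.S48.ModL.Sup.Defs
import Fermat.Agent.S48.ModL.AD.Basic
import Fermat.Prelude.Def_ModularCurve_ArithmeticGalois

/-!
# S48 / MODL, block [H2]: diamond operators on an abstract level

A diamond `D : L.Diam` is an element `s ∈ SL(2,ℤ)` permuting the generators:
`actHol s (hol i) = hol (perm i)`.  It induces

* `D.diamK ι : L.FK K ≃ₐ[K] L.FK K`, `thetaK ι (diamK x) = actMer s (thetaK ι x)`,
  `diamK (genK i) = genK (perm i)`;
* `D.diamS : SemilinearAut Kb (L.FKf Kb)`, commuting with `arithmeticGalois`;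
* `D.diamJ : L.Jac →+ L.Jac`, Galois equivariant;
* `IsKummer.diam` : `IsKummer χ x → IsKummer (g ↦ χ (s⁻¹ g s)) (diamJ x)`.
-/

set_option autoImplicit false
set_option linter.unusedSectionVars false

open UpperHalfPlane hiding I
open Function ModularCurve CongruenceSubgroup AlgebraicCurve
open scoped Manifold MatrixGroups
open Fermat.Agent.S24

namespace Fermat.Agent.S48.ModL

noncomputable section

/-- A diamond operator of the level `L`. -/
structure Lvl.Diam (L : Lvl) where
  /-- the matrix -/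
  s : SL(2, ℤ)
  /-- the permutation of the generators -/
  perm : Equiv.Perm L.ι
  act : ∀ i, actHol s (L.hol i) = L.hol (perm i)

namespace Lvl.Diam

variable {L : Lvl} (D : L.Diam)

/-- the inverse diamond -/
def symm : L.Diam where
  s := D.s⁻¹
  perm := D.perm.symm
  act i := by
    have h := D.act (D.perm.symm i)
    rw [Equiv.apply_symm_apply] at h
    rw [← h, ← AlgEquiv.mul_apply, ← map_mul, inv_mul_cancel, map_one]
    rfl

@[simp] theorem symm_s : D.symm.s = D.s⁻¹ := rfl

@[simp] theorem symm_perm : D.symm.perm = D.perm.symm := rfl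

/-- `s` normalises `G`. -/
theorem conj_mem {g : SL(2, ℤ)} (hg : g ∈ L.G) : D.s⁻¹ * g * D.s ∈ L.G := by
  apply L.sep
  intro i
  rw [map_mul, map_mul, AlgEquiv.mul_apply, AlgEquiv.mul_apply, D.act, L.inv _ g hg]
  have := D.symm.act (D.perm i)
  rwa [symm_perm, Equiv.symm_apply_apply] at this

theorem conj_mem' {g : SL(2, ℤ)} (hg : g ∈ L.G) : D.s * g * D.s⁻¹ ∈ L.G := by
  have := D.symm.conj_mem hg
  rwa [symm_s, inv_inv] at this

section Field

variable {K : Type*} [Field K] [Algebra ℚ K] (ι : K →+* ℂ)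

theorem actMer_thetaK_mem_range (x : L.FK K) :
    (((actMer D.s : Mer ≃ₐ[ℂ] Mer) : Mer →+* Mer).comp (L.thetaK ι)) x ∈
      (L.thetaK ι).fieldRange := by
  apply L.map_mem_of_gen
  · intro a
    refine ⟨algebraMap K _ a, ?_⟩
    rw [RingHom.comp_apply, thetaK_algebraMap]
    exact (AlgEquiv.commutes _ _).symm
  · intro i
    refine ⟨L.genK K (D.perm i), ?_⟩
    rw [RingHom.comp_apply, thetaK_genK, thetaK_genK]
    show _ = actMer D.s _
    rw [actMer_algebraMap, D.act]

/-- the diamond as a ring endomorphism of the function field -/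
def homK : L.FK K →+* L.FK K :=
  liftThrough (L.thetaK ι) (((actMer D.s : Mer ≃ₐ[ℂ] Mer) : Mer →+* Mer).comp (L.thetaK ι))
    (D.actMer_thetaK_mem_range ι)

theorem thetaK_homK (x : L.FK K) : L.thetaK ι (D.homK ι x) = actMer D.s (L.thetaK ι x) :=
  liftThrough_spec _ _ _ x

theorem homK_algebraMap (a : K) : D.homK ι (algebraMap K _ a) = algebraMap K _ a := by
  apply L.thetaK_injective ι
  rw [thetaK_homK, thetaK_algebraMap]
  exact AlgEquiv.commutes _ _

theorem homK_genK (i : L.ι) : D.homK ι (L.genK K i) = L.genK K (D.perm i) := by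
  apply L.thetaK_injective ι
  rw [thetaK_homK, thetaK_genK, thetaK_genK, actMer_algebraMap, D.act]

theorem symm_homK_homK (x : L.FK K) : D.symm.homK ι (D.homK ι x) = x := by
  apply L.thetaK_injective ι
  rw [thetaK_homK, thetaK_homK, symm_s, ← AlgEquiv.mul_apply, ← map_mul, inv_mul_cancel, map_one]
  rfl

theorem homK_symm_homK (x : L.FK K) : D.homK ι (D.symm.homK ι x) = x := by
  apply L.thetaK_injective ι
  rw [thetaK_homK, thetaK_homK, symm_s, ← AlgEquiv.mul_apply, ← map_mul, mul_inv_cancel, map_one]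
  rfl

/-- **the diamond operator on the function field** -/
def diamK : L.FK K ≃ₐ[K] L.FK K where
  toFun := D.homK ι
  invFun := D.symm.homK ι
  left_inv := D.symm_homK_homK ι
  right_inv := D.homK_symm_homK ι
  map_mul' := map_mul _
  map_add' := map_add _
  commutes' := D.homK_algebraMap ι

theorem thetaK_diamK (x : L.FK K) : L.thetaK ι (D.diamK ι x) = actMer D.s (L.thetaK ι x) :=
  D.thetaK_homK ι x

theorem diamK_genK (i : L.ι) : D.diamK ι (L.genK K i) = L.genK K (D.perm i) := D.homK_genK ι i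

end Field

/-- the diamond operator as a semilinear automorphism over `ℚ̄` -/
def diamS : SemilinearAut Kb (L.FKf Kb) := SemilinearAut.ofAlgAut (D.diamK iotaK.toRingHom)

theorem diamS_smul (x : L.FK Kb) : D.diamS • x = D.diamK iotaK.toRingHom x := rfl

theorem thetaK_diamS_smul (x : L.FK Kb) :
    L.thetaK iotaK.toRingHom (D.diamS • x) = actMer D.s (L.thetaK iotaK.toRingHom x) :=
  D.thetaK_diamK _ x

theorem diamS_smul_genK (i : L.ι) : D.diamS • L.genK Kb i = L.genK Kb (D.perm i) :=
  D.diamK_genK _ i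

theorem diamS_smul_algebraMap (a : Kb) :
    D.diamS • (algebraMap Kb (L.FK Kb) a) = algebraMap Kb (L.FK Kb) a :=
  D.homK_algebraMap _ a

/-- **the diamond commutes with the Galois action on coefficients** -/
theorem diamS_mul_arithmeticGalois (σ : Kb ≃ₐ[ℚ] Kb) :
    D.diamS * arithmeticGalois L.F₀ σ = arithmeticGalois L.F₀ σ * D.diamS := by
  have key : ((SemilinearAut.toRingAut (D.diamS * arithmeticGalois L.F₀ σ) : L.FK Kb ≃+* L.FK Kb) :
      L.FK Kb →+* L.FK Kb) =
      ((SemilinearAut.toRingAut (arithmeticGalois L.F₀ σ * D.diamS) : L.FK Kb ≃+* L.FK Kb) :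
        L.FK Kb →+* L.FK Kb) := by
    apply L.ringHom_ext_fk
    · intro a
      show D.diamS • (arithmeticRingAut L.F₀ σ (algebraMap Kb _ a)) =
        arithmeticRingAut L.F₀ σ (D.diamS • (algebraMap Kb _ a))
      rw [arithmeticRingAut_algebraMap, diamS_smul_algebraMap, diamS_smul_algebraMap,
        arithmeticRingAut_algebraMap]
    · intro i
      have hfix : ∀ j, arithmeticRingAut L.F₀ σ (L.genK Kb j) = L.genK Kb j := by
        intro j
        apply Subtype.ext
        rw [coe_arithmeticRingAut_apply, coe_genK, coeffEmb, coeffMap_coeffMap]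
        exact coeffMap_congr (RingHom.ext fun r => by simp) _
      show D.diamS • (arithmeticRingAut L.F₀ σ (L.genK Kb i)) =
        arithmeticRingAut L.F₀ σ (D.diamS • (L.genK Kb i))
      rw [hfix, diamS_smul_genK, hfix]
  refine Subtype.ext (Prod.ext (RingEquiv.ext fun x => ?_) ?_)
  · exact congrArg (fun φ : L.FK Kb →+* L.FK Kb => φ x) key
  · rfl

/-- the diamond operator on the Jacobian -/
def diamJ : L.Jac →+ L.Jac := DistribSMul.toAddMonoidHom L.Jac D.diamS

theorem diamJ_apply (x : L.Jac) : D.diamJ x = D.diamS • x := rfl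

/-- **Galois commutes with the diamond.** -/
theorem galois_diamJ (σ : Kb ≃ₐ[ℚ] Kb) (x : L.Jac) : σ • D.diamJ x = D.diamJ (σ • x) := by
  rw [diamJ_apply, diamJ_apply, galois_smul_pic0_def, galois_smul_pic0_def, ← mul_smul,
    ← mul_smul, diamS_mul_arithmeticGalois]

end Lvl.Diam

/-- **K3 for the diamond**: `θ (δ u) = actMer s (θ u) = (actMer s h) ^ m`, and `actMer s h`
transforms by `g ↦ χ (s⁻¹ g s)`. -/
theorem IsKummer.diam {L : Lvl} (D : L.Diam) {m : ℕ} {χ χ' : L.G →* ℂˣ} {x : L.Jac}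
    (h : IsKummer L m χ x)
    (hχ : ∀ g g' : L.G, (g' : SL(2, ℤ)) = D.s⁻¹ * g * D.s → χ' g = χ g') :
    IsKummer L m χ' (D.diamJ x) := by
  obtain ⟨E, u, f, hu, hord, hθ, hchar, rfl⟩ := h
  refine ⟨SemilinearAut.degZeroSMulHom D.diamS E, D.diamS • u, actMer D.s f, ?_, ?_, ?_, ?_, ?_⟩
  · simpa using hu
  · intro v
    rw [SemilinearAut.coe_degZeroSMulHom, SemilinearAut.divisor_smul_apply, ← hord]
    have h1 := SemilinearAut.ord_smul D.diamS (D.diamS⁻¹ • v) u
    rwa [smul_inv_smul] at h1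
  · rw [D.thetaK_diamS_smul, hθ, map_pow]
  · intro g
    have hg' : D.s⁻¹ * (g : SL(2, ℤ)) * D.s ∈ L.G := D.conj_mem g.2
    have h1 := hchar ⟨_, hg'⟩
    rw [hχ g ⟨_, hg'⟩ rfl]
    have h2 : (g : SL(2, ℤ)) * D.s = D.s * (D.s⁻¹ * (g : SL(2, ℤ)) * D.s) := by group
    rw [← AlgEquiv.mul_apply, ← map_mul, h2, map_mul, AlgEquiv.mul_apply]
    erw [h1]
    rw [map_mul]
    congr 1
    exact AlgEquiv.commutes _ _
  · exact SemilinearAut.pic0_smul_mk D.diamS E

end

end Fermat.Agent.S48.ModL
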