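import Fermat.Agent.S48.ModL.F.Dia
import Fermat.Agent.S48.ModL.Hecke.Diam

/-!
# S48 / MODL / [H] for `lvlY M` : the diamond `diamY p : (lvlY M hM).Diam` (owner helper72)

`s := F.sP M p`, the permutation is `(a, b) ↦ (p a, p b)` on the `z`-generators and the identity
on the `j(d τ)`.  Its semilinear automorphism is `F.dia`.
-/

set_option autoImplicit false
set_option linter.unusedSectionVars false

open UpperHalfPlane hiding I
open Function ModularCurve CongruenceSubgroup IntermediateField AlgebraicCurve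
open scoped Manifold MatrixGroups
open Fermat.Agent.S24 Fermat.Agent.GAL

namespace Fermat.Agent.S48.ModL

open Y F

noncomputable section

variable (M : ℕ) [NeZero M] (hM : 2 < M) (hM4 : ¬ M ∣ 4)

/-- multiplication by the unit `p` of `ZMod M`. -/
def mulP {p : ℕ} (hp : Nat.Coprime p M) : Equiv.Perm (ZMod M) :=
  (ZMod.unitOfCoprime p hp).mulLeft

theorem mulP_apply {p : ℕ} (hp : Nat.Coprime p M) (a : ZMod M) :
    mulP M hp a = (p : ZMod M) * a := rfl

/-- the permutation of the generators of `lvlY M`. -/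
def permY {p : ℕ} (hp : Nat.Coprime p M) : Equiv.Perm (Idx M) :=
  Equiv.sumCongr (Equiv.refl _) (Equiv.prodCongr (mulP M hp) (mulP M hp))

theorem dia_genK {p : ℕ} (hp : Nat.Coprime p M) (i : Idx M) :
    dia M hM hM4 p • (lvlY M hM).genK Kb i = (lvlY M hM).genK Kb (permY M hp i) := by
  rcases i with d | x
  · exact dia_genK_inl M hM hM4 hp d
  · exact dia_zK M hM hM4 hp x.1 x.2

/-- **the diamond of `lvlY M`.** -/
def diamY {p : ℕ} (hp : Nat.Coprime p M) : (lvlY M hM).Diam where
  s := sP M p
  perm := permY M hp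
  act i := by
    have h := congrArg (th M hM) (dia_genK M hM hM4 hp i)
    rw [th_dia, Lvl.thetaK_genK, Lvl.thetaK_genK, actMer_algebraMap] at h
    exact IsFractionRing.injective Hol Mer h

@[simp] theorem diamY_s {p : ℕ} (hp : Nat.Coprime p M) : (diamY M hM hM4 hp).s = sP M p := rfl

theorem diamS_diamY_smul {p : ℕ} (hp : Nat.Coprime p M) (u : (lvlY M hM).FK Kb) :
    (diamY M hM hM4 hp).diamS • u = dia M hM hM4 p • u := by
  apply (lvlY M hM).thetaK_injective iotaK.toRingHom
  rw [Lvl.Diam.thetaK_diamS_smul]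
  exact (th_dia M hM hM4 p u).symm

theorem diamS_diamY {p : ℕ} (hp : Nat.Coprime p M) :
    (diamY M hM hM4 hp).diamS = dia M hM hM4 p := by
  refine Subtype.ext (Prod.ext (RingEquiv.ext fun x => ?_) ?_)
  · exact diamS_diamY_smul M hM hM4 hp x
  · show SemilinearAut.baseAut _ = SemilinearAut.baseAut _
    rw [Lvl.Diam.diamS, dia, SemilinearAut.baseAut_ofAlgAut, SemilinearAut.baseAut_ofAlgAut]

theorem diamJ_diamY {p : ℕ} (hp : Nat.Coprime p M) :
    (diamY M hM hM4 hp).diamJ = Dm M hM hM4 p := by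
  refine AddMonoidHom.ext fun x => ?_
  rw [Lvl.Diam.diamJ_apply, Dm_apply, diamS_diamY]

end

end Fermat.Agent.S48.ModL
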