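import Fermat.Agent.S48.ModL.Hecke.Raw

/-!
# S48 / MODL, block [H4]: the norm from `L.withP p` to `L` is the product over the cosets

Port of `GAL/HeckeEquiv/NormProd.lean` (dictionary: `FN N ↦ L.FK Kb`, `FN (N ℓ) ↦ (L.withP p h).FK Kb`,
`heckeAlphaBar ↦ alphaK h Kb`, `ThetaMer ↦ thetaK iotaK.toRingHom`, `sigma0 ↦ sigma0K`,
`degree_of_charpolyCoeff ↦ Lvl.finrank_jK`, `QN N ℓ ↦ L.QP p`).
-/

set_option autoImplicit false
set_option linter.style.haveILetI false
set_option linter.unusedSectionVars false

open UpperHalfPlane hiding I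
open Function ModularCurve ModularForm CongruenceSubgroup AlgebraicCurve IntermediateField
open Matrix.SpecialLinearGroup (mapGL)
open scoped Manifold MatrixGroups
open Fermat.Agent.S24 Fermat.Agent.GAL.HeckeEquiv Fermat.Agent.RED.TorsES

namespace Fermat.Agent.S48.ModL

noncomputable section

namespace Lvl

variable {L : Lvl} {p : ℕ} [NeZero p] (h : L.ConjP p)

instance finite_QP (L : Lvl) (p : ℕ) [NeZero p] : Finite (L.QP p) := by
  haveI : (L.G ⊓ Gamma0 p).FiniteIndex := inferInstance
  haveI : ((L.G ⊓ Gamma0 p).subgroupOf L.G).FiniteIndex := inferInstance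
  exact Subgroup.finite_quotient_of_finiteIndex

instance fintype_QP (L : Lvl) (p : ℕ) [NeZero p] : Fintype (L.QP p) := Fintype.ofFinite _

theorem card_QP_mul : Nat.card (L.QP p) * Nat.card L.X = Nat.card (L.withP p h).X :=
  Subgroup.relIndex_mul_index (inf_le_left : L.G ⊓ Gamma0 p ≤ L.G)

/-- `Kb(j)` inside `Kb((q))`. -/
def jFld (L : Lvl) : IntermediateField Kb (LaurentSeries Kb) :=
  Kb⟮((L.jK Kb : L.FK Kb) : LaurentSeries Kb)⟯

theorem relfinrank_jFld (L : Lvl) : relfinrank L.jFld (L.FKf Kb) = Nat.card L.X := by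
  have h1 := L.finrank_jK iotaK.toRingHom
  rw [← h1, ← relfinrank_top_right, ← relfinrank_map_map _ _ (L.FKf Kb).val]
  congr 1
  · rw [jFld, IntermediateField.adjoin_map, Set.image_singleton]
    rfl
  · rw [← AlgHom.fieldRange_eq_map, IntermediateField.fieldRange_val]

theorem jFld_le (L : Lvl) : L.jFld ≤ L.FKf Kb := by
  rw [jFld, IntermediateField.adjoin_simple_le_iff]
  exact (L.jK Kb).2

theorem jFld_withP : (L.withP p h).jFld = L.jFld := rfl

theorem finrank_alphaK_eq_relfinrank :
    (letI := algebraAlong (alphaK h Kb); Module.finrank (L.FK Kb) ((L.withP p h).FK Kb)) =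
      relfinrank (L.FKf Kb) ((L.withP p h).FKf Kb) := by
  letI := algebraAlong (alphaK h Kb)
  rw [relfinrank_eq_finrank_of_le (FKf_le_withP h Kb)]
  refine LinearEquiv.finrank_eq
    { toFun := fun x => ⟨x.1, x.2⟩
      invFun := fun x => ⟨x.1, x.2⟩
      map_add' := fun _ _ => rfl
      map_smul' := fun _ _ => rfl
      left_inv := fun _ => rfl
      right_inv := fun _ => rfl }

theorem finrank_alphaK_mul :
    (letI := algebraAlong (alphaK h Kb); Module.finrank (L.FK Kb) ((L.withP p h).FK Kb)) *
      Nat.card L.X = Nat.card (L.withP p h).X := by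
  rw [finrank_alphaK_eq_relfinrank, ← relfinrank_jFld, ← relfinrank_jFld, jFld_withP, mul_comm]
  exact relfinrank_mul_relfinrank (jFld_le L) (FKf_le_withP h Kb)

theorem finrank_alphaK :
    (letI := algebraAlong (alphaK h Kb); Module.finrank (L.FK Kb) ((L.withP p h).FK Kb)) =
      Nat.card (L.QP p) := by
  have h0 : Nat.card L.X ≠ 0 := Nat.card_pos.ne'
  exact Nat.eq_of_mul_eq_mul_right (Nat.pos_of_ne_zero h0)
    ((finrank_alphaK_mul h).trans (card_QP_mul h).symm)

/-! ### The embeddings -/

/-- `MerBar` as an algebra over the function field of level `L`. -/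
abbrev algMerBarK (L : Lvl) : Algebra (L.FK Kb) MerBar :=
  ((algebraMap Mer MerBar).comp (L.thetaK iotaK.toRingHom)).toAlgebra

/-- The embedding of `(L.withP p h).FK Kb` over `L.FK Kb` attached to `g ∈ L.G`. -/
def embOfK (g : L.G) :
    letI := algebraAlong (alphaK h Kb)
    letI := algMerBarK L
    (L.withP p h).FK Kb →ₐ[L.FK Kb] MerBar :=
  letI := algebraAlong (alphaK h Kb)
  letI := algMerBarK L
  { (algebraMap Mer MerBar).comp ((L.withP p h).sigma0K iotaK.toRingHom g) with
    commutes' := fun a => by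
      show algebraMap Mer MerBar ((L.withP p h).sigma0K iotaK.toRingHom g (alphaK h Kb a)) =
        algebraMap Mer MerBar (L.thetaK iotaK.toRingHom a)
      rw [sigma0K_apply, thetaK_alphaK, L.actMer_thetaK _ g.2] }

theorem embOfK_apply (g : L.G) (y : (L.withP p h).FK Kb) :
    embOfK h g y =
      algebraMap Mer MerBar (actMer g ((L.withP p h).thetaK iotaK.toRingHom y)) := rfl

theorem embOfK_out_injective :
    Function.Injective (fun q : L.QP p => embOfK h q.out) := by
  intro q q' hq
  have h1 : (L.withP p h).sigma0K iotaK.toRingHom (q.out : SL(2, ℤ)) =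
      (L.withP p h).sigma0K iotaK.toRingHom (q'.out : SL(2, ℤ)) := by
    ext y
    apply (algebraMap Mer MerBar).injective
    exact DFunLike.congr_fun hq y
  rw [← sigmaK_mk, ← sigmaK_mk] at h1
  have h2 := (L.withP p h).sigmaK_injective iotaK.toRingHom h1
  rw [QuotientGroup.eq] at h2
  rw [← q.out_eq', ← q'.out_eq']
  exact QuotientGroup.eq.mpr (Subgroup.mem_subgroupOf.mpr h2)

theorem finite_alphaK :
    letI := algebraAlong (alphaK h Kb)
    Module.Finite (L.FK Kb) ((L.withP p h).FK Kb) := by
  letI := algebraAlong (alphaK h Kb)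
  apply Module.finite_of_finrank_pos
  rw [finrank_alphaK]
  exact Nat.card_pos

/-- **The norm is the product over the cosets.** -/
theorem thetaK_normAlong (y : (L.withP p h).FK Kb) :
    L.thetaK iotaK.toRingHom (normAlong (alphaK h Kb) y) =
      ∏ q : L.QP p, actMer (q.out : SL(2, ℤ)) ((L.withP p h).thetaK iotaK.toRingHom y) := by
  letI := algebraAlong (alphaK h Kb)
  letI := algMerBarK L
  haveI := finite_alphaK h
  apply (algebraMap Mer MerBar).injective
  have h1 := Algebra.norm_eq_prod_embeddings (L.FK Kb) MerBar y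
  have hbij : Function.Bijective (fun q : L.QP p => embOfK h q.out) := by
    rw [Fintype.bijective_iff_injective_and_card]
    refine ⟨embOfK_out_injective h, ?_⟩
    rw [AlgHom.card, finrank_alphaK, Nat.card_eq_fintype_card]
  rw [map_prod]
  refine h1.trans ?_
  exact (hbij.prod_comp (fun σ : (L.withP p h).FK Kb →ₐ[L.FK Kb] MerBar => σ y)).symm

end Lvl

end

end Fermat.Agent.S48.ModL
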