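import Fermat.Agent.S24.HolPerMore
import Fermat.Agent.S24.Growth
import Fermat.Agent.GAL.HeckeEquiv.MerGL

/-!
# S48 / MODL, block [H], WP H-PER2 : `τ ↦ (τ + j) / p` on periodic functions

`divHolPer p j : HolPer 1 →ₐ[ℂ] HolPer p`, `f ↦ f ((τ + j) / p)`; `divPer p j` on the fraction fields;
`exists_per_heckeMatrix_aux` = the statement of `exists_per_heckeMatrix` (`Hecke/Per.lean`).
-/

set_option autoImplicit false

open UpperHalfPlane hiding I
open Function ModularCurve ModularForm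
open scoped Manifold MatrixGroups Real
open Fermat.Agent.S24 Fermat.Agent.GAL.HeckeEquiv

namespace Fermat.Agent.S48.ModL

noncomputable section

local notation "𝕢" => Periodic.qParam

variable (p : ℕ) [NeZero p]

theorem heckeMatrix_smul_vadd_period (j : ℕ) (τ : ℍ) :
    heckeMatrix p j • ((p : ℝ) +ᵥ τ) = (1 : ℝ) +ᵥ (heckeMatrix p j • τ) := by
  apply UpperHalfPlane.ext
  rw [coe_heckeMatrix_smul (NeZero.ne p), coe_vadd, coe_vadd, coe_heckeMatrix_smul (NeZero.ne p)]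
  have hp : (p : ℂ) ≠ 0 := Nat.cast_ne_zero.2 (NeZero.ne p)
  push_cast
  field_simp
  ring

theorem im_heckeMatrix_smul (j : ℕ) (τ : ℍ) : (heckeMatrix p j • τ).im = τ.im / p := by
  have h := congrArg Complex.im (coe_heckeMatrix_smul (NeZero.ne p) j τ)
  rw [coe_im] at h
  rw [h, show ((p : ℂ)) = (((p : ℝ)) : ℂ) by push_cast; rfl, Complex.div_ofReal_im]
  simp

theorem div_mem_HolPer (j : ℕ) {f : ℍ → ℂ} (hf : f ∈ HolPer 1) :
    (fun τ => f (heckeMatrix p j • τ)) ∈ HolPer p := by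
  rw [mem_HolPer_iff] at hf ⊢
  obtain ⟨h1, h2, h3⟩ := hf
  refine ⟨(compGL (heckeMatrix p j) (det_heckeMatrix_pos p j) ⟨f, h1⟩).2, ?_, ?_⟩
  · intro τ
    rw [heckeMatrix_smul_vadd_period]
    simpa using h2 (heckeMatrix p j • τ)
  · rw [isBoundedAtImInfty_iff] at h3 ⊢
    obtain ⟨M, A, hMA⟩ := h3
    refine ⟨M, A * p, fun z hz => hMA _ ?_⟩
    rw [im_heckeMatrix_smul, le_div_iff₀ (HolPer.pos p)]
    exact hz

/-- `f ↦ f ((τ + j) / p)`. -/
def divHolPer (j : ℕ) : HolPer 1 →ₐ[ℂ] HolPer p where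
  toFun f := ⟨fun τ => (f : ℍ → ℂ) (heckeMatrix p j • τ), div_mem_HolPer p j f.2⟩
  map_one' := rfl
  map_mul' _ _ := rfl
  map_zero' := rfl
  map_add' _ _ := rfl
  commutes' _ := rfl

@[simp] theorem divHolPer_apply (j : ℕ) (f : HolPer 1) (τ : ℍ) :
    (divHolPer p j f : ℍ → ℂ) τ = (f : ℍ → ℂ) (heckeMatrix p j • τ) := rfl

theorem divHolPer_injective (j : ℕ) : Injective (divHolPer p j) := by
  intro a b hab
  apply Subtype.ext
  funext τ
  have := congrFun (congrArg Subtype.val hab) ((heckeMatrix p j)⁻¹ • τ)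
  simpa [smul_inv_smul] using this

theorem inclHol_divHolPer (j : ℕ) (f : HolPer 1) :
    inclHol p (divHolPer p j f) =
      compGL (heckeMatrix p j) (det_heckeMatrix_pos p j) (inclHol 1 f) := rfl

theorem qParam_heckeMatrix_smul (j : ℕ) (τ : ℍ) :
    𝕢 ((1 : ℕ) : ℝ) ((heckeMatrix p j • τ : ℍ) : ℂ) =
      ((zetaU p ^ j : ℂˣ) : ℂ) * 𝕢 (p : ℝ) (τ : ℂ) := by
  have hp : (p : ℂ) ≠ 0 := Nat.cast_ne_zero.2 (NeZero.ne p)
  rw [Units.val_pow_eq_pow_val, coe_zetaU, ← Complex.exp_nat_mul, Periodic.qParam,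
    Periodic.qParam, ← Complex.exp_add, coe_heckeMatrix_smul (NeZero.ne p)]
  congr 1
  push_cast
  field_simp
  ring

theorem qExpansion_div_coeff (j : ℕ) (f : HolPer 1) (n : ℕ) :
    (qExpansion (p : ℝ) (divHolPer p j f : ℍ → ℂ)).coeff n =
      ((zetaU p ^ j : ℂˣ) : ℂ) ^ n * (qExpansion ((1 : ℕ) : ℝ) (f : ℍ → ℂ)).coeff n := by
  refine (qExpansion_coeff_unique_fun (HolPer.pos p) (HolPer.analyticAt p (divHolPer p j f))
    (c := fun n => ((zetaU p ^ j : ℂˣ) : ℂ) ^ n *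
      (qExpansion ((1 : ℕ) : ℝ) (f : ℍ → ℂ)).coeff n) ?_ n).symm
  intro τ
  have := hasSum_qExpansion (HolPer.pos 1) f.2.2.1 f.2.1 f.2.2.2 (heckeMatrix p j • τ)
  rw [qParam_heckeMatrix_smul] at this
  have h2 : (fun m : ℕ => (((zetaU p ^ j : ℂˣ) : ℂ) ^ m *
        (qExpansion ((1 : ℕ) : ℝ) (f : ℍ → ℂ)).coeff m) • 𝕢 (p : ℝ) (τ : ℂ) ^ m) =
      fun m : ℕ => (qExpansion ((1 : ℕ) : ℝ) (f : ℍ → ℂ)).coeff m •
        (((zetaU p ^ j : ℂˣ) : ℂ) * 𝕢 (p : ℝ) (τ : ℂ)) ^ m := by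
    funext m
    simp only [smul_eq_mul, mul_pow]
    ring
  rw [h2]
  exact this

theorem qExpLaurent_div (j : ℕ) (f : HolPer 1) :
    qExpLaurent p (divHolPer p j f) = rot (zetaU p ^ j) (qExpLaurent 1 f) := by
  ext k
  rw [rot_coeff]
  show (HahnSeries.ofPowerSeries ℤ ℂ (qExpansion (p : ℝ) (divHolPer p j f : ℍ → ℂ))).coeff k =
    _ * (HahnSeries.ofPowerSeries ℤ ℂ (qExpansion ((1 : ℕ) : ℝ) (f : ℍ → ℂ))).coeff k
  rcases le_or_gt 0 k with hk | hk
  · lift k to ℕ using hk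
    rw [HahnSeries.ofPowerSeries_apply_coeff, HahnSeries.ofPowerSeries_apply_coeff,
      qExpansion_div_coeff]
    simp
  · rw [ofPowerSeries_coeff_neg _ hk, ofPowerSeries_coeff_neg _ hk, mul_zero]

/-- `u ↦ u ((τ + j) / p)` on the fraction fields. -/
def divPer (j : ℕ) : MerPer 1 →+* MerPer p :=
  IsFractionRing.map (A := HolPer 1) (B := HolPer p) (K := MerPer 1) (L := MerPer p)
    (j := (divHolPer p j).toRingHom) (divHolPer_injective p j)

theorem divPer_algebraMap (j : ℕ) (f : HolPer 1) :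
    divPer p j (algebraMap (HolPer 1) (MerPer 1) f) =
      algebraMap (HolPer p) (MerPer p) (divHolPer p j f) :=
  IsLocalization.map_eq (S := MerPer 1) (Q := MerPer p) (g := (divHolPer p j).toRingHom)
    (nonZeroDivisors_le_comap_nonZeroDivisors_of_injective _ (divHolPer_injective p j)) f

theorem toLaurent_divPer (j : ℕ) (u : MerPer 1) :
    toLaurent p (divPer p j u) = rot (zetaU p ^ j) (toLaurent 1 u) := by
  obtain ⟨a, b, -, rfl⟩ := IsFractionRing.div_surjective (A := HolPer 1) u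
  rw [map_div₀, map_div₀, map_div₀, divPer_algebraMap, divPer_algebraMap, rot_div]
  have key : ∀ (h : ℕ) [NeZero h] (f : HolPer h),
      toLaurent h (algebraMap (HolPer h) (MerPer h) f) = qExpLaurent h f :=
    fun h _ f => toLaurent_algebraMap h f
  rw [key, key, key, key, qExpLaurent_div, qExpLaurent_div]

theorem toMer_divPer (j : ℕ) (u : MerPer 1) :
    toMer p (divPer p j u) = merGL (heckeMatrix p j) (det_heckeMatrix_pos p j) (toMer 1 u) := by
  obtain ⟨a, b, -, rfl⟩ := IsFractionRing.div_surjective (A := HolPer 1) u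
  rw [map_div₀, map_div₀, map_div₀, map_div₀, divPer_algebraMap, divPer_algebraMap,
    toMer_algebraMap, toMer_algebraMap, toMer_algebraMap, toMer_algebraMap, merGL_algebraMap,
    merGL_algebraMap, inclHol_divHolPer, inclHol_divHolPer]

/-- `u ((τ + j) / p)` is `p`-periodic; its expansion in `t = exp (2 π i τ / p)` is the
`q`-expansion of `u`, rotated by `ζ_p ^ j`. -/
theorem exists_per_heckeMatrix_aux (j : ℕ) (u : MerPer 1) :
    ∃ w : MerPer p,
      toMer p w = merGL (heckeMatrix p j) (det_heckeMatrix_pos p j) (toMer 1 u) ∧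
      toLaurent p w = rot (zetaU p ^ j) (toLaurent 1 u) :=
  ⟨divPer p j u, toMer_divPer p j u, toLaurent_divPer p j u⟩

end

end Fermat.Agent.S48.ModL
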