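import Fermat.Agent.S24.HolPerMore
import Fermat.Agent.S24.Growth
import Fermat.Agent.GAL.HeckeEquiv.MerGL
import Fermat.Agent.S48.ModL.Hecke.PerDiv

/-!
# S48 / MODL, block [H], analytic leaves: `τ ↦ p τ` and `τ ↦ (τ + j) / p` on periodic functions

* `scalPer p : MerPer 1 →+* MerPer 1`, `u ↦ u (p τ)`; `q`-expansion `q ↦ q ^ p`;
* `exists_per_heckeMatrix` : `u ((τ + j) / p)` is `p`-periodic, and its expansion in
  `t = exp (2 π i τ / p)` is the expansion of `u` rotated by `ζ_p ^ j`;
* `modGrowth_actHol_compGL_diag` : moderate growth of all translates is inherited by `f (p τ)`.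
-/

set_option autoImplicit false

open UpperHalfPlane hiding I
open Function ModularCurve ModularForm Filter Topology
open scoped Manifold MatrixGroups
open Fermat.Agent.S24 Fermat.Agent.GAL.HeckeEquiv

namespace Fermat.Agent.S48.ModL

noncomputable section

local notation "𝕢" => Function.Periodic.qParam
local notation "Δ" => ModularForm.discriminant

variable (p : ℕ) [NeZero p]

/-- `f ↦ f (p τ)` on `HolPer 1`. -/
def scalHolPer : HolPer 1 →ₐ[ℂ] HolPer 1 where
  toFun f := ⟨(f : ℍ → ℂ) ∘ scal p, mdiff_comp_scal p f.2.1,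
    by simpa using periodic_comp_scal p (by simpa using f.2.2.1),
    isBoundedAtImInfty_comp_scal p f.2.2.2⟩
  map_one' := rfl
  map_mul' _ _ := rfl
  map_zero' := rfl
  map_add' _ _ := rfl
  commutes' _ := rfl

@[simp] theorem coe_scalHolPer (f : HolPer 1) : (scalHolPer p f : ℍ → ℂ) = (f : ℍ → ℂ) ∘ scal p :=
  rfl

theorem scalHolPer_injective : Injective (scalHolPer p) := by
  intro a b hab
  apply inclHol_injective 1
  apply compGL_injective (heckeDiagMatrix p) (det_heckeDiagMatrix_pos p)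
  apply Subtype.ext
  funext τ
  have := congrFun (congrArg Subtype.val hab) τ
  simp only [coe_scalHolPer, comp_apply] at this
  rw [compGL_apply, compGL_apply, ← scal_eq_smul]
  exact this

/-- `u ↦ u (p τ)` on `MerPer 1`. -/
def scalPer : MerPer 1 →+* MerPer 1 :=
  IsFractionRing.map (A := HolPer 1) (B := HolPer 1) (K := MerPer 1) (L := MerPer 1)
    (j := (scalHolPer p).toRingHom) (scalHolPer_injective p)

theorem scalPer_algebraMap (f : HolPer 1) :
    scalPer p (algebraMap (HolPer 1) (MerPer 1) f) =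
      algebraMap (HolPer 1) (MerPer 1) (scalHolPer p f) :=
  IsLocalization.map_eq (S := MerPer 1) (Q := MerPer 1) (g := (scalHolPer p).toRingHom)
    (nonZeroDivisors_le_comap_nonZeroDivisors_of_injective _ (scalHolPer_injective p)) f

theorem toLaurent_scalPer (u : MerPer 1) :
    toLaurent 1 (scalPer p u) = qExpand ℂ p (toLaurent 1 u) := by
  obtain ⟨a, b, -, rfl⟩ := IsFractionRing.div_surjective (A := HolPer 1) u
  have key : ∀ f : HolPer 1, toLaurent 1 (algebraMap (HolPer 1) (MerPer 1) (scalHolPer p f)) =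
      qExpand ℂ p (toLaurent 1 (algebraMap (HolPer 1) (MerPer 1) f)) := by
    intro f
    rw [toLaurent_algebraMap, toLaurent_algebraMap, coe_scalHolPer]
    have := ofPowerSeries_qExpansion_comp_scal p (f := (f : ℍ → ℂ)) (by simpa using f.2.2.1)
      f.2.1 f.2.2.2
    simpa using this
  rw [map_div₀, map_div₀, map_div₀, map_div₀, scalPer_algebraMap, scalPer_algebraMap, key, key]

theorem toMer_scalPer (u : MerPer 1) :
    toMer 1 (scalPer p u) =
      merGL (heckeDiagMatrix p) (det_heckeDiagMatrix_pos p) (toMer 1 u) := by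
  obtain ⟨a, b, -, rfl⟩ := IsFractionRing.div_surjective (A := HolPer 1) u
  have key : ∀ f : HolPer 1, inclHol 1 (scalHolPer p f) =
      compGL (heckeDiagMatrix p) (det_heckeDiagMatrix_pos p) (inclHol 1 f) := by
    intro f
    apply Subtype.ext
    funext τ
    rw [compGL_apply, ← scal_eq_smul]
    rfl
  rw [map_div₀, map_div₀, map_div₀, map_div₀, scalPer_algebraMap, scalPer_algebraMap,
    toMer_algebraMap, toMer_algebraMap, toMer_algebraMap, toMer_algebraMap, merGL_algebraMap,
    merGL_algebraMap, key, key]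

/-- `u ((τ + j) / p)` is `p`-periodic; its expansion in `t = exp (2 π i τ / p)` is the
`q`-expansion of `u`, rotated by `ζ_p ^ j`. -/
theorem exists_per_heckeMatrix (j : ℕ) (u : MerPer 1) :
    ∃ w : MerPer p,
      toMer p w = merGL (heckeMatrix p j) (det_heckeMatrix_pos p j) (toMer 1 u) ∧
      toLaurent p w = rot (zetaU p ^ j) (toLaurent 1 u) :=
  exists_per_heckeMatrix_aux p j u

/-- moderate growth is stable under `τ ↦ (a τ + b) / e`. -/
theorem ModGrowth.comp_upperTriangular {f : ℍ → ℂ} (hf : ModGrowth f) {a b e : ℝ}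
    (hae : 0 < a * e) : ModGrowth (fun τ => f (upperTriangularGL a b e hae.ne' • τ)) := by
  obtain ⟨M, hM⟩ := hf
  obtain ⟨M', hM'⟩ := exists_nat_ge ((M : ℝ) * (a / e))
  refine ⟨M', ?_⟩
  have hA := tendsto_upperTriangularGL_smul (b := b) hae
  have h1 : IsBoundedAtImInfty (fun τ : ℍ => (Δ τ / 𝕢 1 (τ : ℂ)) ^ M') :=
    (tendsto_discriminant_div_q.pow M').isBigO_one ℝ
  have h2 : IsBoundedAtImInfty (fun τ : ℍ =>
      ((Δ (upperTriangularGL a b e hae.ne' • τ) /
        𝕢 1 ((upperTriangularGL a b e hae.ne' • τ : ℍ) : ℂ))⁻¹) ^ M) := by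
    have := ((tendsto_discriminant_div_q.comp hA).inv₀ one_ne_zero).pow M
    exact this.isBigO_one ℝ
  have h3 : IsBoundedAtImInfty (fun τ : ℍ => Δ (upperTriangularGL a b e hae.ne' • τ) ^ M *
      f (upperTriangularGL a b e hae.ne' • τ)) := by
    have := Asymptotics.IsBigO.comp_tendsto hM hA
    exact this
  have h4 : IsBoundedAtImInfty (fun τ : ℍ => 𝕢 1 (τ : ℂ) ^ M' /
      𝕢 1 ((upperTriangularGL a b e hae.ne' • τ : ℍ) : ℂ) ^ M) := by
    refine Asymptotics.IsBigO.of_bound 1 (Eventually.of_forall fun τ => ?_)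
    rw [norm_div, norm_pow, norm_pow, norm_qParam_coe, norm_qParam_coe,
      im_upperTriangularGL_smul hae, ← Real.exp_nat_mul, ← Real.exp_nat_mul, ← Real.exp_sub]
    simp only [Pi.one_apply, norm_one, mul_one]
    rw [Real.exp_le_one_iff]
    have him := τ.im_pos
    have : 0 ≤ ((M' : ℝ) - M * (a / e)) * τ.im := mul_nonneg (sub_nonneg.mpr hM') him.le
    nlinarith [Real.pi_pos]
  have := ((h1.mul h2).mul h3).mul h4
  refine this.congr' ?_ (EventuallyEq.refl _ _)
  refine Eventually.of_forall fun τ => ?_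
  have hq : 𝕢 1 (τ : ℂ) ≠ 0 := by simp [Function.Periodic.qParam]
  have hq' : 𝕢 1 ((upperTriangularGL a b e hae.ne' • τ : ℍ) : ℂ) ≠ 0 := by
    simp [Function.Periodic.qParam]
  have hΔ : Δ (upperTriangularGL a b e hae.ne' • τ) ≠ 0 := discriminant_ne_zero _
  simp only [Pi.mul_apply]
  rw [div_pow, inv_pow, div_pow]
  field_simp

/-- moderate growth of all `SL(2,ℤ)`-translates is inherited by `f (p τ)`. -/
theorem modGrowth_actHol_compGL_diag (f : Hol)
    (hf : ∀ g : SL(2, ℤ), ModGrowth (actHol g f : ℍ → ℂ)) (g : SL(2, ℤ)) :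
    ModGrowth (actHol g (compGL (heckeDiagMatrix p) (det_heckeDiagMatrix_pos p) f) : ℍ → ℂ) := by
  obtain ⟨g', a, b, e, ha, he, hae, -, h⟩ := exists_hermite_smul p g⁻¹
  have har : (0 : ℝ) < a := by exact_mod_cast ha
  have her : (0 : ℝ) < e := by exact_mod_cast he
  have hpos : (0 : ℝ) < (a : ℝ) * e := mul_pos har her
  have h1 := ModGrowth.comp_upperTriangular (hf g'⁻¹) (b := b) hpos
  have h2 : (actHol g (compGL (heckeDiagMatrix p) (det_heckeDiagMatrix_pos p) f) : ℍ → ℂ) =
      fun τ => (actHol g'⁻¹ f : ℍ → ℂ) (upperTriangularGL a b e hpos.ne' • τ) := by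
    funext τ
    rw [actHol_apply, compGL_apply, actHol_apply, inv_inv, h hpos.ne' τ]
  rw [h2]
  exact h1

end

end Fermat.Agent.S48.ModL
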