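import Fermat.Agent.S48.ModL.Hecke.AlphaBeta
import Fermat.Agent.S48.ModL.Hecke.Diam
import Fermat.Agent.S48.ModL.GY
import Fermat.Agent.RED.TorsESAbs
import Fermat.Agent.GAL.HeckeEquiv.Cosets

/-!
# S48 / MODL, block [H4], definitions: the representatives of `G \ G diag(p,1) G`

`rawRep p s ∞ = diag(p,1)`, `rawRep p s j = s⁻¹ [[1,j],[0,p]]`.

`IsHeckeCompat G p s` : right multiplication by `g ∈ G` permutes the cosets `G * rawRep p s x`
(by `x ↦ redMatrix p g • x`), and `G ⊄ Γ₀(p)`.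
-/

set_option autoImplicit false
set_option linter.unusedSectionVars false

open UpperHalfPlane hiding I
open Function ModularCurve ModularForm CongruenceSubgroup AlgebraicCurve
open Matrix.SpecialLinearGroup (mapGL)
open P2MW.S_ModularForm_heckeT_slash_eq_self_of_mem_Gamma0.ModularForm.HeckeSlashInvariance
open scoped Manifold MatrixGroups OnePoint
open Fermat.Agent.S24 Fermat.Agent.GAL.HeckeEquiv

namespace Fermat.Agent.S48.ModL

noncomputable section

/-- Representatives of `G \ G diag(p,1) G`. -/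
def rawRep (p : ℕ) (s : SL(2, ℤ)) (x : OnePoint (ZMod p)) : GL (Fin 2) ℝ :=
  x.elim (heckeDiagMatrix p) (fun j => mapGL ℝ s⁻¹ * heckeMatrix p j.val)

@[simp] theorem rawRep_infty (p : ℕ) (s : SL(2, ℤ)) : rawRep p s ∞ = heckeDiagMatrix p := rfl

@[simp] theorem rawRep_coe (p : ℕ) (s : SL(2, ℤ)) (j : ZMod p) :
    rawRep p s j = mapGL ℝ s⁻¹ * heckeMatrix p j.val := rfl

theorem det_rawRep_pos (p : ℕ) (s : SL(2, ℤ)) (x : OnePoint (ZMod p)) :
    0 < (rawRep p s x).det.val := by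
  induction x using OnePoint.rec with
  | infty => exact det_heckeDiagMatrix_pos p
  | coe j => exact det_mul_pos (det_mapGL_pos s⁻¹) (det_heckeMatrix_pos p j.val)

/-- comparison with the standard representatives `repY` of `ModL/GY.lean` -/
theorem repY_eq (p : ℕ) (s : SL(2, ℤ)) (x : OnePoint (ZMod p)) :
    repY p s x = mapGL ℝ s * rawRep p s x := by
  induction x using OnePoint.rec with
  | infty => rfl
  | coe j =>
    rw [rawRep_coe, ← mul_assoc, ← map_mul, mul_inv_cancel, map_one, one_mul]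
    rfl

/-- The compatibility between the group `G`, the prime `p` and the diamond matrix `s`. -/
structure IsHeckeCompat (G : Subgroup SL(2, ℤ)) (p : ℕ) [Fact p.Prime] (s : SL(2, ℤ)) : Prop where
  mul : ∀ g ∈ G, ∀ x : OnePoint (ZMod p), ∃ d ∈ G,
    rawRep p s x * mapGL ℝ g = mapGL ℝ d * rawRep p s (redMatrix p g • x)
  not_dvd : ∃ g ∈ G, ¬ (p : ℤ) ∣ g 1 0

/-- `χ'` is the transfer of `χ` along the raw representatives. -/
def IsRawTransferG {G : Subgroup SL(2, ℤ)} (p : ℕ) [NeZero p] (s : SL(2, ℤ)) (χ χ' : G →* ℂˣ) :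
    Prop :=
  ∀ (g : G) (σ : Equiv.Perm (OnePoint (ZMod p))) (d : OnePoint (ZMod p) → G),
    (∀ x, rawRep p s x * mapGL ℝ (g : SL(2, ℤ)) = mapGL ℝ (d x : SL(2, ℤ)) * rawRep p s (σ x)) →
    χ' g = ∏ x, χ (d x)

/-- additive version -/
def IsRawTransferAddG {G : Subgroup SL(2, ℤ)} {A : Type*} [AddCommMonoid A] (p : ℕ) [NeZero p]
    (s : SL(2, ℤ)) (c c' : Additive G →+ A) : Prop :=
  ∀ (g : G) (σ : Equiv.Perm (OnePoint (ZMod p))) (d : OnePoint (ZMod p) → G),
    (∀ x, rawRep p s x * mapGL ℝ (g : SL(2, ℤ)) = mapGL ℝ (d x : SL(2, ℤ)) * rawRep p s (σ x)) →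
    c' (Additive.ofMul g) = ∑ x, c (Additive.ofMul (d x))

theorem IsRawTransferAddG.chiOf {L : Lvl} {m : ℕ} [NeZero m] {p : ℕ} [NeZero p] {s : SL(2, ℤ)}
    {c c' : Additive L.G →+ ZMod m} (h : IsRawTransferAddG p s c c') :
    IsRawTransferG p s (chiOf c) (chiOf c') := by
  intro γ σ d hd
  ext
  rw [coe_chiOf, h γ σ d hd, Units.coe_prod]
  exact map_sum (ZMod.stdAddChar (N := m)).toAddMonoidHom _ _

/-- The coset space `G / (G ∩ Γ₀(p))`. -/
abbrev Lvl.QP (L : Lvl) (p : ℕ) : Type := L.G ⧸ (L.G ⊓ Gamma0 p).subgroupOf L.G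

end

end Fermat.Agent.S48.ModL
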