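import Fermat.Agent.S48.ModL.Hecke.Per
import Fermat.Agent.S48.ModL.AD.Basic
import Fermat.Agent.GAL.HeckeGalois

/-!
# S48 / MODL, block [H0]: the level `L.withP p` (`G ∩ Γ₀(p)`)

`L.withP p h` has group `L.G ⊓ Γ₀(p)`, generators `gen i (q)` and `gen i (q ^ p)`.
The hypothesis `L.ConjP p` says `diag(p,1) (G ∩ Γ₀(p)) diag(p,1)⁻¹ ⊆ G`.
-/

set_option autoImplicit false
set_option linter.unusedSectionVars false

open UpperHalfPlane hiding I
open Function ModularCurve ModularForm CongruenceSubgroup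
open Matrix.SpecialLinearGroup (mapGL)
open scoped Manifold MatrixGroups
open Fermat.Agent.S24 Fermat.Agent.GAL.HeckeEquiv

namespace Fermat.Agent.S48.ModL

noncomputable section

namespace Lvl

variable (L : Lvl) (p : ℕ) [NeZero p]

/-- `diag(p,1) (G ∩ Γ₀(p)) diag(p,1)⁻¹ ⊆ G`. -/
def ConjP : Prop := ∀ g ∈ L.G, ∀ g' : SL(2, ℤ),
  heckeDiagMatrix p * mapGL ℝ g = mapGL ℝ g' * heckeDiagMatrix p → g' ∈ L.G

/-- `hol i (p τ)`. -/
def holP (i : L.ι) : Hol := compGL (heckeDiagMatrix p) (det_heckeDiagMatrix_pos p) (L.hol i)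

theorem holP_apply (i : L.ι) (τ : ℍ) :
    (L.holP p i : ℍ → ℂ) τ = (L.hol i : ℍ → ℂ) (heckeDiagMatrix p • τ) := rfl

variable {L p}

theorem actHol_holP (h : L.ConjP p) (i : L.ι) {γ : SL(2, ℤ)} (hγ : γ ∈ L.G)
    (hγp : γ ∈ Gamma0 p) : actHol γ (L.holP p i) = L.holP p i := by
  obtain ⟨γ', hγ'⟩ := Fermat.Agent.Common.heckeDiag_mul_Gamma0 p γ⁻¹ (inv_mem hγp)
  have hG : γ' ∈ L.G := h γ⁻¹ (inv_mem hγ) γ' hγ'
  apply Subtype.ext
  funext τ
  rw [actHol_apply, holP_apply, holP_apply, smul_eq_mapGL_smul, ← mul_smul, hγ', mul_smul,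
    ← smul_eq_mapGL_smul]
  have h1 := congrFun (congrArg Subtype.val (L.inv i γ'⁻¹ (inv_mem hG))) (heckeDiagMatrix p • τ)
  rwa [actHol_apply, inv_inv] at h1

theorem mem_Gamma0_of_actHol_holP {g : SL(2, ℤ)}
    (h : actHol g (L.holP p L.i₀) = L.holP p L.i₀) : g ∈ Gamma0 p := by
  rw [← inv_inv g]
  apply inv_mem
  apply mem_Gamma0_of_comp_diag_eq jfun_isSLInvariant jfun_hasSimplePoleAtImInfty p g⁻¹
  intro τ
  have h1 := congrFun (congrArg Subtype.val h) τ
  rw [actHol_apply, holP_apply, holP_apply, L.hol_i₀] at h1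
  simpa [jd_one] using h1

variable (L p)

theorem toLaurent_scalPer_per (i : L.ι) :
    toLaurent 1 (scalPer p (L.per i)) = coeffEmb ℂ (qExpand ℚ p (L.gen i)) := by
  rw [toLaurent_scalPer, L.toLaurent_per]
  exact (Fermat.Agent.GAL.HeckeGalois.coeffMap_qExpand _ _ _).symm

theorem toMer_scalPer_per (i : L.ι) :
    toMer 1 (scalPer p (L.per i)) = algebraMap Hol Mer (L.holP p i) := by
  rw [toMer_scalPer, L.toMer_per, merGL_algebraMap]
  rfl

/-- **The level `G ∩ Γ₀(p)`.** -/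
def withP (h : L.ConjP p) : Lvl where
  G := L.G ⊓ Gamma0 p
  h := L.h * p
  h_ne := mul_ne_zero L.h_ne (NeZero.ne p)
  Gamma_le := by
    intro g hg
    rw [Gamma_mem] at hg
    obtain ⟨h00, h01, h10, h11⟩ := hg
    have cast : ∀ (n : ℕ) (hn : n ∣ L.h * p) (a b : ℤ),
        ((a : ℤ) : ZMod (L.h * p)) = ((b : ℤ) : ZMod (L.h * p)) →
        ((a : ℤ) : ZMod n) = ((b : ℤ) : ZMod n) := by
      intro n hn a b hab
      rw [ZMod.intCast_eq_intCast_iff_dvd_sub] at hab ⊢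
      exact (Int.natCast_dvd_natCast.mpr hn).trans hab
    refine ⟨L.Gamma_le ?_, ?_⟩
    · rw [Gamma_mem]
      refine ⟨?_, ?_, ?_, ?_⟩
      · simpa using cast L.h (dvd_mul_right _ _) (g 0 0) 1 (by simpa using h00)
      · simpa using cast L.h (dvd_mul_right _ _) (g 0 1) 0 (by simpa using h01)
      · simpa using cast L.h (dvd_mul_right _ _) (g 1 0) 0 (by simpa using h10)
      · simpa using cast L.h (dvd_mul_right _ _) (g 1 1) 1 (by simpa using h11)
    · show g ∈ Gamma0 p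
      rw [Gamma0_mem]
      simpa using cast p (dvd_mul_left _ _) (g 1 0) 0 (by simpa using h10)
  neg_one_mem := ⟨L.neg_one_mem, by
    show (-1 : SL(2, ℤ)) ∈ Gamma0 p
    rw [Gamma0_mem]; simp⟩
  T_mem := ⟨L.T_mem, by
    show ModularGroup.T ∈ Gamma0 p
    rw [Gamma0_mem]; simp [ModularGroup.T]⟩
  ι := L.ι ⊕ L.ι
  fin := inferInstance
  gen := Sum.elim L.gen (fun i => qExpand ℚ p (L.gen i))
  hol := Sum.elim L.hol (L.holP p)
  per := Sum.elim L.per (fun i => scalPer p (L.per i))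
  toLaurent_per := by
    rintro (i | i)
    · exact L.toLaurent_per i
    · exact L.toLaurent_scalPer_per p i
  toMer_per := by
    rintro (i | i)
    · exact L.toMer_per i
    · exact L.toMer_scalPer_per p i
  growth := by
    rintro (i | i) g
    · exact L.growth i g
    · exact modGrowth_actHol_compGL_diag p (L.hol i) (L.growth i) g
  inv := by
    rintro (i | i) γ hγ
    · exact L.inv i γ hγ.1
    · exact actHol_holP h i hγ.1 hγ.2
  sep := by
    intro g hg
    exact ⟨L.sep g fun i => hg (Sum.inl i), mem_Gamma0_of_actHol_holP (hg (Sum.inr L.i₀))⟩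
  i₀ := Sum.inl L.i₀
  gen_i₀ := L.gen_i₀

variable {L p} (h : L.ConjP p)

@[simp] theorem withP_G : (L.withP p h).G = L.G ⊓ Gamma0 p := rfl

@[simp] theorem withP_gen_inl (i : L.ι) : (L.withP p h).gen (Sum.inl i : L.ι ⊕ L.ι) = L.gen i := rfl

@[simp] theorem withP_gen_inr (i : L.ι) :
    (L.withP p h).gen (Sum.inr i : L.ι ⊕ L.ι) = qExpand ℚ p (L.gen i) := rfl

@[simp] theorem withP_hol_inl (i : L.ι) : (L.withP p h).hol (Sum.inl i : L.ι ⊕ L.ι) = L.hol i := rfl

@[simp] theorem withP_hol_inr (i : L.ι) :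
    (L.withP p h).hol (Sum.inr i : L.ι ⊕ L.ι) = L.holP p i := rfl

end Lvl

end

end Fermat.Agent.S48.ModL
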